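import Fermat.Prelude.Def_ModularCurve_LaurentCoeff
import Fermat.Prelude.Def_ModularCurve_X0

/-!
# The substitution `q ↦ c q` on Laurent series
-/

set_option autoImplicit false

noncomputable section

open HahnSeries ModularCurve

namespace FermatAgent.ES

variable {R : Type*} [CommRing R]

/-- The function underlying `qTwist`. -/
def qTwistFun (c : Rˣ) (f : LaurentSeries R) : LaurentSeries R where
  coeff n := ((c ^ n : Rˣ) : R) * f.coeff n
  isPWO_support' := f.isPWO_support.mono fun n hn h => hn (by
    change _ * f.coeff n = 0
    rw [show f.coeff n = 0 from h, mul_zero])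

/-- The substitution `q ↦ c q`. -/
def qTwist (c : Rˣ) : LaurentSeries R →+* LaurentSeries R where
  toFun := qTwistFun c
  map_zero' := by
    ext n
    simp [qTwistFun]
  map_one' := by
    ext n
    simp only [qTwistFun, HahnSeries.coeff_one]
    split
    · next h => subst h; simp
    · simp
  map_add' f g := by
    ext n
    simp [qTwistFun, mul_add]
  map_mul' f g := by
    ext n
    have hsupp : ∀ h : LaurentSeries R, (qTwistFun c h).support = h.support := fun h => by
      ext m
      simp only [mem_support, qTwistFun]
      rw [ne_eq, Units.mul_right_eq_zero]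
    rw [coeff_mul]
    show ((c ^ n : Rˣ) : R) * (f * g).coeff n = _
    rw [coeff_mul, Finset.mul_sum]
    refine Finset.sum_congr ?_ fun ij hij => ?_
    · ext ij
      simp [hsupp]
    · obtain ⟨-, -, rfl⟩ := Finset.mem_antidiagonal.mp hij
      simp only [qTwistFun]
      rw [zpow_add, Units.val_mul]
      ring

@[simp]
theorem qTwist_coeff (c : Rˣ) (f : LaurentSeries R) (n : ℤ) :
    (qTwist c f).coeff n = ((c ^ n : Rˣ) : R) * f.coeff n :=
  rfl

theorem qTwist_one_apply (f : LaurentSeries R) : qTwist 1 f = f := by
  ext n
  simp

theorem coeffMap_qTwist {S : Type*} [CommRing S] (φ : R →+* S) (c : Rˣ) (f : LaurentSeries R) :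
    coeffMap φ (qTwist c f) = qTwist (Units.map φ.toMonoidHom c) (coeffMap φ f) := by
  ext n
  simp only [coeffMap_coeff, qTwist_coeff, map_mul, ← map_zpow]
  rfl

@[simp]
theorem qTwist_single (c : Rˣ) (m : ℤ) (r : R) :
    qTwist c (HahnSeries.single m r) = HahnSeries.single m (((c ^ m : Rˣ) : R) * r) := by
  ext n
  rcases eq_or_ne n m with rfl | h
  · simp
  · simp [coeff_single_of_ne h]

theorem qTwist_injective (c : Rˣ) : Function.Injective (qTwist c) := fun f g h => by
  ext n
  have := congrArg (fun z : LaurentSeries R => z.coeff n) h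
  simpa using this

end FermatAgent.ES
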