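import Mathlib.RingTheory.PowerSeries.Expand
import Mathlib.FieldTheory.Perfect
import Fermat.Prelude.Def_ModularCurve_X0ModL
import Fermat.Prelude.Def_AlgebraicCurve_BaseChangeGalois

/-!
# Laurent series in characteristic `ℓ`

Laurent series in characteristic `ℓ`, and coefficientwise automorphisms of
`modularFunctionFieldFullC k N`.
-/

set_option autoImplicit false
set_option linter.style.haveILetI false

noncomputable section

open HahnSeries AlgebraicCurve ModularCurve

namespace FermatAgent.ES

theorem qExpand_ofPowerSeries {R : Type*} [CommRing R] (n : ℕ) [NeZero n] (f : PowerSeries R) :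
    qExpand R n (ofPowerSeries ℤ R f) = ofPowerSeries ℤ R (f.expand n (NeZero.ne n)) := by
  ext k
  by_cases hk : (n : ℤ) ∣ k
  · obtain ⟨m, rfl⟩ := hk
    rw [qExpand_coeff_mul]
    rcases le_or_gt 0 m with hm | hm
    · lift m to ℕ using hm
      rw [← Nat.cast_mul, ofPowerSeries_apply_coeff, ofPowerSeries_apply_coeff,
        PowerSeries.coeff_expand_mul]
    · have hnm : (n : ℤ) * m < 0 :=
        mul_neg_of_pos_of_neg (by exact_mod_cast Nat.pos_of_ne_zero (NeZero.ne n)) hm
      rw [ofPowerSeries_coeff_of_neg _ hm, ofPowerSeries_coeff_of_neg _ hnm]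
  · rw [qExpand_coeff_of_not_dvd n _ hk]
    rcases le_or_gt 0 k with h | h
    · lift k to ℕ using h
      rw [ofPowerSeries_apply_coeff, PowerSeries.coeff_expand_of_not_dvd]
      exact fun hd => hk (by exact_mod_cast hd)
    · rw [ofPowerSeries_coeff_of_neg _ h]

theorem coeffMap_ofPowerSeries' {R S : Type*} [CommRing R] [CommRing S] (f : R →+* S)
    (u : PowerSeries R) :
    coeffMap f (ofPowerSeries ℤ R u) = ofPowerSeries ℤ S (u.map f) := by
  ext k
  rw [coeffMap_coeff]
  rcases le_or_gt 0 k with h | h
  · lift k to ℕ using h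
    rw [ofPowerSeries_apply_coeff, ofPowerSeries_apply_coeff, PowerSeries.coeff_map]
  · rw [ofPowerSeries_coeff_of_neg _ h, ofPowerSeries_coeff_of_neg _ h, map_zero]

/-- The `ℓ`-th power of a Laurent series in characteristic `ℓ`. -/
theorem pow_char_eq {R : Type*} [CommRing R] (ℓ : ℕ) [Fact ℓ.Prime] [CharP R ℓ]
    [NeZero ℓ] (y : LaurentSeries R) :
    y ^ ℓ = coeffMap (frobenius R ℓ) (qExpand R ℓ y) := by
  conv_rhs => rw [← LaurentSeries.single_order_mul_powerSeriesPart y]
  conv_lhs => rw [← LaurentSeries.single_order_mul_powerSeriesPart y]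
  rw [map_mul, map_mul, qExpand_single, coeffMap_single, mul_pow, HahnSeries.single_pow,
    one_pow, nsmul_eq_mul, (frobenius R ℓ).map_one]
  congr 1
  rw [← map_pow, qExpand_ofPowerSeries, coeffMap_ofPowerSeries']
  congr 1
  exact (MvPowerSeries.map_frobenius_expand ℓ (NeZero.ne ℓ)).symm

section CoeffAut

variable {k : Type*} [Field k] (N : ℕ)

theorem coeffMap_mem_fullC (τ : k →+* k) {x : LaurentSeries k}
    (hx : x ∈ modularFunctionFieldFullC k N) : coeffMap τ x ∈ modularFunctionFieldFullC k N := by
  have hx' : x ∈ Subfield.closure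
      (Set.range (algebraMap k (LaurentSeries k)) ∪ divisorExpansionsC k N) := hx
  clear hx
  induction hx' using Subfield.closure_induction with
  | mem y hy =>
    rcases hy with ⟨a, rfl⟩ | ⟨d, hd, hdvd, rfl⟩
    · rw [coeffMap_algebraMap]
      exact (modularFunctionFieldFullC k N).algebraMap_mem _
    · haveI := hd
      rw [ModularCurve.coeffMap_qExpand, coeffMap_jqModC]
      exact jqModCd_mem_full k N hdvd
  | one => simp
  | add x y _ _ hx hy => simpa using add_mem hx hy
  | neg x _ hx => simpa using neg_mem hx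
  | inv x _ hx => simpa using inv_mem hx
  | mul x y _ _ hx hy => simpa using mul_mem hx hy

/-- Coefficientwise action of a field automorphism on `modularFunctionFieldFullC k N`. -/
def coeffRingAut (τ : k ≃+* k) :
    modularFunctionFieldFullC k N ≃+* modularFunctionFieldFullC k N where
  toFun x := ⟨coeffMap (τ : k →+* k) (x : LaurentSeries k), coeffMap_mem_fullC N _ x.2⟩
  invFun x := ⟨coeffMap (τ.symm : k →+* k) (x : LaurentSeries k), coeffMap_mem_fullC N _ x.2⟩
  left_inv x := Subtype.ext <| by
    ext n
    simp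
  right_inv x := Subtype.ext <| by
    ext n
    simp
  map_mul' x y := Subtype.ext (map_mul (coeffMap (τ : k →+* k)) (x : LaurentSeries k) _)
  map_add' x y := Subtype.ext (map_add (coeffMap (τ : k →+* k)) (x : LaurentSeries k) _)

/-- Coefficientwise action as a semilinear automorphism. -/
def coeffSemilinear (τ : k ≃+* k) : SemilinearAut k (modularFunctionFieldFullC k N) :=
  ⟨(coeffRingAut N τ, τ), fun a => Subtype.ext (coeffMap_algebraMap (τ : k →+* k) a)⟩

@[simp]
theorem coe_coeffSemilinear_smul (τ : k ≃+* k) (x : modularFunctionFieldFullC k N) :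
    ((coeffSemilinear N τ • x : modularFunctionFieldFullC k N) : LaurentSeries k) =
      coeffMap (τ : k →+* k) (x : LaurentSeries k) :=
  rfl

theorem coeffSemilinear_refl :
    coeffSemilinear (k := k) N (RingEquiv.refl k) = 1 := by
  refine Subtype.ext (Prod.ext (RingEquiv.ext fun x => Subtype.ext ?_) rfl)
  ext n
  rfl

theorem coeffSemilinear_mul (τ τ' : k ≃+* k) :
    coeffSemilinear N (τ * τ') = coeffSemilinear N τ * coeffSemilinear N τ' := by
  refine Subtype.ext (Prod.ext (RingEquiv.ext fun x => Subtype.ext ?_) rfl)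
  ext n
  rfl

theorem coeffSemilinear_inv (τ : k ≃+* k) :
    (coeffSemilinear N τ)⁻¹ = coeffSemilinear N τ.symm := by
  refine Subtype.ext (Prod.ext (RingEquiv.ext fun x => Subtype.ext ?_) rfl)
  rfl

end CoeffAut

end FermatAgent.ES
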