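import Fermat.Agent.ES.Bounded
import Fermat.Agent.ES.Series
import Fermat.Prelude.Def_ModularCurve_ReductionModL
import Fermat.Prelude.Def_EllipticCurve_FrobeniusTrace

/-!
# Galois equivariance of `reductionModL`
-/

set_option autoImplicit false

noncomputable section

open AlgebraicCurve ModularCurve

namespace FermatAgent.ES

local notation "Qb" => AlgebraicClosure ℚ

variable {A : ValuationSubring Qb} {N : ℕ}

section Residual

local notation "kA" => IsLocalRing.ResidueField A

/-- The automorphism of the residue field induced by an element of the decomposition group. -/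
def residueAut (g : A.decompositionSubgroup ℚ) : kA ≃+* kA :=
  MulSemiringAction.toRingEquiv (A.decompositionSubgroup ℚ) kA g

@[simp]
theorem residueAut_apply (g : A.decompositionSubgroup ℚ) (x : kA) : residueAut g x = g • x := rfl

theorem residueAut_of_mem_inertia {σ : Qb ≃ₐ[ℚ] Qb} (hσ : σ ∈ A.inertiaSubgroupIn ℚ) :
    ∃ hD : σ ∈ A.decompositionSubgroup ℚ, residueAut ⟨σ, hD⟩ = RingEquiv.refl kA := by
  obtain ⟨g, hg, rfl⟩ := hσ
  refine ⟨g.2, RingEquiv.ext fun x => ?_⟩
  have h : MulSemiringAction.toRingAut (A.decompositionSubgroup ℚ) kA g = 1 :=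
    MonoidHom.mem_ker.mp hg
  exact RingEquiv.congr_fun h x

theorem residueAut_of_isFrobeniusAt {σ : Qb ≃ₐ[ℚ] Qb} {ℓ : ℕ} (hσ : A.IsFrobeniusAt σ ℓ)
    (x : kA) : residueAut ⟨σ, hσ.mem_decompositionSubgroup⟩ x = x ^ ℓ :=
  hσ.smul_residue_eq x

theorem residueAut_residue (g : A.decompositionSubgroup ℚ) (a : A) :
    residueAut g (IsLocalRing.residue A a) = IsLocalRing.residue A (g • a) :=
  (IsLocalRing.ResidueField.residue_smul _ g a).symm

end Residual

variable {k : Type*} [Field k] {π : A →+* k}

/-- A map on divisors killing integral principal divisors kills all principal divisors. -/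
theorem map_principal_eq_zero_of_integral {G : Type*} [AddCommGroup G]
    (hgen : PrincipalGeneratedByIntegral A π N)
    (δ : Divisor Qb (modularFunctionFieldBar N) →+ G)
    (h : ∀ D ∈ integralPrincipalDivisors A π N, δ D = 0)
    {D : Divisor Qb (modularFunctionFieldBar N)}
    (hD : D ∈ Divisor.principal (K := Qb) (F := modularFunctionFieldBar N)) : δ D = 0 :=
  (AddSubgroup.closure_le δ.ker).mpr (fun _ hE => h _ hE) (hgen hD)

variable (r : Place Qb (modularFunctionFieldBar N) →
  Place k (modularFunctionFieldFullC k N))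

/-- `r_* ∘ σ - σ̄ ∘ r_*` on divisors. -/
def galoisDefect (g : A.decompositionSubgroup ℚ) (τ : k ≃+* k) :
    Divisor Qb (modularFunctionFieldBar N) →+ Divisor k (modularFunctionFieldFullC k N) :=
  (reductionDivAlong r).comp (DistribSMul.toAddMonoidHom _
      (arithmeticGalois (modularFunctionFieldFull N) (g : Qb ≃ₐ[ℚ] Qb))) -
    (DistribSMul.toAddMonoidHom _ (coeffSemilinear N τ)).comp (reductionDivAlong r)

theorem galoisDefect_apply (g : A.decompositionSubgroup ℚ) (τ : k ≃+* k)
    (D : Divisor Qb (modularFunctionFieldBar N)) :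
    galoisDefect r g τ D =
      Finsupp.mapDomain r
          (arithmeticGalois (modularFunctionFieldFull N) (g : Qb ≃ₐ[ℚ] Qb) • D) -
        coeffSemilinear N τ • Finsupp.mapDomain r D :=
  rfl

variable {r}

theorem galoisDefect_integral (hr : IsPlaceReductionAlong A π N r) (g : A.decompositionSubgroup ℚ)
    (τ : k ≃+* k) (hτ : ∀ a : A, τ (π a) = π (g • a))
    {D : Divisor Qb (modularFunctionFieldBar N)}
    (hD : D ∈ integralPrincipalDivisors A (π) N) :
    galoisDefect r g τ D = 0 := by
  obtain ⟨y, hy, hyk, hne, hDy⟩ := hD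
  set gA : A →+* A := MulSemiringAction.toRingHom (A.decompositionSubgroup ℚ) A g with hgA
  have hσy : coeffMap A.subtype (coeffMap gA y) =
      coeffMap ((g : Qb ≃ₐ[ℚ] Qb) : Qb →+* Qb) (coeffMap A.subtype y) := by
    rw [coeffMap_coeffMap, coeffMap_coeffMap]
    exact coeffMap_congr (RingHom.ext fun a => rfl) y
  have hy' : coeffMap A.subtype (coeffMap gA y) ∈ modularFunctionFieldBar N := by
    rw [hσy]
    exact coeffMap_mem_laurentBaseChange _ hy
  have hτy : coeffMap (π) (coeffMap gA y) =
      coeffMap (τ : k →+* k) (coeffMap (π) y) := by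
    rw [coeffMap_coeffMap, coeffMap_coeffMap]
    exact coeffMap_congr (RingHom.ext fun a => (hτ a).symm) y
  have hyk' : coeffMap (π) (coeffMap gA y) ∈
      modularFunctionFieldFullC k N := by
    rw [hτy]
    exact coeffMap_mem_fullC N _ hyk
  have hne' : coeffMap (π) (coeffMap gA y) ≠ 0 := by
    rw [hτy]
    intro h
    apply hne
    ext n
    have h' := congrArg (fun z : LaurentSeries k => z.coeff n) h
    simp only [coeffMap_coeff, HahnSeries.coeff_zero] at h'
    rw [coeffMap_coeff, HahnSeries.coeff_zero]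
    exact τ.injective (h'.trans (map_zero τ).symm)
  rw [galoisDefect_apply, sub_eq_zero]
  refine Finsupp.ext fun Q => ?_
  rw [hr.2 (coeffMap gA y) hy' hyk' hne'
    (arithmeticGalois (modularFunctionFieldFull N) (g : Qb ≃ₐ[ℚ] Qb) • D) ?_ Q]
  · rw [SemilinearAut.divisor_smul_apply, hr.2 y hy hyk hne D hDy]
    rw [← SemilinearAut.ord_smul (coeffSemilinear N τ)
      ((coeffSemilinear N τ)⁻¹ • Q), smul_inv_smul]
    congr 1
    exact Subtype.ext hτy
  · intro P
    rw [SemilinearAut.divisor_smul_apply, hDy,
      ← SemilinearAut.ord_smul (arithmeticGalois (modularFunctionFieldFull N) (g : Qb ≃ₐ[ℚ] Qb))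
        ((arithmeticGalois (modularFunctionFieldFull N) (g : Qb ≃ₐ[ℚ] Qb))⁻¹ • P), smul_inv_smul]
    congr 1

theorem galoisDefect_bound (g : A.decompositionSubgroup ℚ) (τ : k ≃+* k)
    (P : Place Qb (modularFunctionFieldBar N)) (Q : Place k (modularFunctionFieldFullC k N)) :
    |galoisDefect r g τ (Finsupp.single P 1) Q| ≤ 1 := by
  classical
  rw [galoisDefect_apply, SemilinearAut.smul_single, Finsupp.mapDomain_single,
    Finsupp.mapDomain_single, SemilinearAut.smul_single, Finsupp.sub_apply,
    Finsupp.single_apply, Finsupp.single_apply]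
  split <;> split <;> simp

/-- Reduction intertwines `σ` in the decomposition group with its residual automorphism. -/
theorem reductionAlong_smul (h : ReductionInputsAlong A π N)
    (hb : HasEffectiveBound Qb (modularFunctionFieldBar N)) (g : A.decompositionSubgroup ℚ)
    (τ : k ≃+* k) (hτ : ∀ a : A, τ (π a) = π (g • a)) (x : JZero N) :
    reductionAlong A π N ((g : Qb ≃ₐ[ℚ] Qb) • x) =
      coeffSemilinear N τ • reductionAlong A π N x := by
  obtain ⟨D, rfl⟩ := Pic0.mk_surjective x
  rw [galois_smul_pic0_def, SemilinearAut.pic0_smul_mk, reductionAlong_mk h, reductionAlong_mk h,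
    SemilinearAut.pic0_smul_mk]
  refine congrArg Pic0.mk (Subtype.ext ?_)
  have h0 := apply_eq_zero_of_bounded' hb (galoisDefect h.choose g τ)
    (fun E hE => map_principal_eq_zero_of_integral h.choose_spec.2 _
      (fun E' hE' => galoisDefect_integral h.choose_spec.1 g τ hτ hE') hE)
    (galoisDefect_bound g τ) D.2
  rw [galoisDefect_apply, sub_eq_zero] at h0
  exact h0

end FermatAgent.ES
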