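import Fermat.Agent.ES.BoundedRR
import Fermat.Agent.ModCurve.Fun.Degree
import Fermat.Agent.ModCurve.Group.Counts
import Fermat.Agent.Curve.Basics
import Fermat.Agent.Curve.RR.Setup
import Fermat.Prelude.Def_ModularCurve_HeckeOperator

/-!
# Degree bound and curve inputs at level `N`

The degree bound `[F_{Nℓ} : F_N] ≤ ℓ + 1` and the curve inputs at level `N`.
-/

set_option autoImplicit false
set_option linter.style.haveILetI false

noncomputable section

open AlgebraicCurve ModularCurve IntermediateField CongruenceSubgroup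

namespace FermatAgent.ES

/-- Tower formula along an algebra map. -/
theorem finrank_mul_finrankAlong {K F F' : Type*} [Field K] [Field F] [Field F'] [Algebra K F]
    [Algebra K F'] (φ : F →ₐ[K] F') (E : IntermediateField K F) :
    Module.finrank E F * finrankAlong K φ = Module.finrank (E.map φ) F' := by
  letI := algebraAlong φ
  haveI := isScalarTower_along φ
  show Module.finrank E F * Module.finrank F F' = _
  rw [Module.finrank_mul_finrank]
  exact Algebra.finrank_eq_of_equiv_equiv (E.equivMap φ).toRingEquiv (RingEquiv.refl F') rfl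

local notation "Qb" => AlgebraicClosure ℚ

theorem map_adjoin_jBar (N ℓ : ℕ) [NeZero N] [NeZero ℓ] :
    (Qb⟮FermatAgent.ModFun.jBar Qb N⟯).map (heckeAlphaBar Qb N ℓ) =
      Qb⟮FermatAgent.ModFun.jBar Qb (N * ℓ)⟯ := by
  rw [IntermediateField.adjoin_map, Set.image_singleton]
  rfl

theorem index_gamma0_mul_le {N ℓ : ℕ} [NeZero N] (hℓ : ℓ.Prime) (hℓN : ¬ ℓ ∣ N) :
    (Gamma0 (N * ℓ)).index ≤ (ℓ + 1) * (Gamma0 N).index := by
  haveI : NeZero ℓ := ⟨hℓ.ne_zero⟩
  have hcop : IsCoprime (N : ℤ) (ℓ : ℤ) :=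
    (Int.isCoprime_iff_gcd_eq_one.mpr
      (by rw [Int.gcd_natCast_natCast]; exact (hℓ.coprime_iff_not_dvd.mpr hℓN).symm))
  have heq : Gamma0 (N * ℓ) = Gamma0 N ⊓ Gamma0 ℓ := by
    ext γ
    simp only [Subgroup.mem_inf, Gamma0_mem, ZMod.intCast_zmod_eq_zero_iff_dvd]
    push_cast
    exact ⟨fun h => ⟨(dvd_mul_right _ _).trans h, (dvd_mul_left _ _).trans h⟩,
      fun h => hcop.mul_dvd h.1 h.2⟩
  have hl : (Gamma0 ℓ).index = ℓ + 1 := by
    rw [FermatAgent.ModCurveGroup.index_gamma0, ModularCurve.dedekindPsi, hℓ.divisors]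
    rw [Finset.filter_true_of_mem (by
      intro d hd
      rcases Finset.mem_insert.mp hd with rfl | hd
      · exact squarefree_one
      · rw [Finset.mem_singleton.mp hd]; exact hℓ.squarefree)]
    rw [Finset.sum_pair hℓ.ne_one.symm]
    simp [Nat.div_self hℓ.pos]
  rw [heq]
  refine Subgroup.index_inf_le.trans ?_
  rw [hl, mul_comm]

theorem finrankAlong_heckeAlphaBar_le (N ℓ : ℕ) [NeZero N] [NeZero ℓ] (hℓ : ℓ.Prime)
    (hℓN : ¬ ℓ ∣ N) : finrankAlong Qb (heckeAlphaBar Qb N ℓ) ≤ ℓ + 1 := by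
  have h := finrank_mul_finrankAlong (heckeAlphaBar Qb N ℓ) (Qb⟮FermatAgent.ModFun.jBar Qb N⟯)
  rw [map_adjoin_jBar, FermatAgent.ModFun.finrank_adjoin_jBar,
    FermatAgent.ModFun.finrank_adjoin_jBar] at h
  refine Nat.le_of_mul_le_mul_left ?_ (FermatAgent.ModFun.index_pos N)
  rw [h, mul_comm (Gamma0 N).index]
  exact index_gamma0_mul_le hℓ hℓN

theorem isFunctionField1_fieldBar (N : ℕ) [NeZero N] :
    FermatAgent.Curve.IsFunctionField1 Qb (modularFunctionFieldBar N) := by
  haveI := FermatAgent.ModFun.finiteDimensional_adjoin_jBar Qb N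
  exact FermatAgent.Curve.IsFunctionField1.of_finiteDimensional
    (FermatAgent.ModFun.transcendental_jBar Qb N)

theorem deg_eq_one_fieldBar (N : ℕ) [NeZero N] (P : Place Qb (modularFunctionFieldBar N)) :
    P.deg = 1 :=
  haveI := isFunctionField1_fieldBar N
  FermatAgent.Curve.RR.RRSetting.deg_eq_one P

theorem hasEffectiveBound_fieldBar (N : ℕ) [NeZero N] :
    HasEffectiveBound Qb (modularFunctionFieldBar N) :=
  haveI := isFunctionField1_fieldBar N
  hasEffectiveBound_of_rrSetting Qb _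

theorem finiteAlong_heckeAlphaBar (N ℓ : ℕ) [NeZero N] [NeZero ℓ] :
    FiniteAlong Qb (heckeAlphaBar Qb N ℓ) :=
  haveI := isFunctionField1_fieldBar N
  haveI := isFunctionField1_fieldBar (N * ℓ)
  FermatAgent.Curve.finiteAlong _

end FermatAgent.ES
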