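import Fermat.Agent.ES.Galois
import Fermat.Agent.ES.Twist
import Fermat.Prelude.Def_ModularCurve_HeckeOperatorTotal

/-!
# The Eichler–Shimura congruence

The Eichler–Shimura congruence for `T_ℓ` on the reduction, from the norm formula on q-expansions.
-/

set_option autoImplicit false
set_option linter.style.haveILetI false

noncomputable section

open AlgebraicCurve ModularCurve

namespace FermatAgent.ES

local notation "Qb" => AlgebraicClosure ℚ

/-- The norm along an algebra map. -/
def normAlong {K F F' : Type*} [Field K] [Field F] [Field F'] [Algebra K F] [Algebra K F']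
    (φ : F →ₐ[K] F') (x : F') : F :=
  letI := algebraAlong φ
  Algebra.norm F x

/-- The q-expansion of the norm down from level `N ℓ` of `f(q ^ ℓ)`. -/
def HeckeNormFormula (N ℓ : ℕ) [NeZero N] [NeZero ℓ] : Prop :=
  ∃ ζ : Qbˣ, ζ ^ ℓ = 1 ∧ ∀ f : modularFunctionFieldBar N,
    qExpand Qb ℓ
        ((normAlong (heckeAlphaBar Qb N ℓ) (heckeBetaBar Qb N ℓ f) : modularFunctionFieldBar N) :
          LaurentSeries Qb) =
      qExpand Qb (ℓ * ℓ) (f : LaurentSeries Qb) *
        ∏ b ∈ Finset.range ℓ, qTwist (ζ ^ b) (f : LaurentSeries Qb)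

section Effective

variable {K F F' : Type*} [Field K] [Field F] [Field F'] [Algebra K F] [Algebra K F']
  [HasPrincipalDivisors K F'] (φ ψ : F →ₐ[K] F') (hφ : φ.toRingHom.IsIntegral)
  (hψ : ψ.toRingHom.IsIntegral)

theorem correspondence_apply_principal (hfin : FiniteAlong K ψ) (hN : NormFormulaAlong K ψ hfin)
    {D : Divisor K F} {f : F} (hf : f ≠ 0) (hD : ∀ v, D v = v.ord f) (v : Place K F) :
    Divisor.correspondence φ ψ hφ hψ D v = v.ord (normAlong ψ (φ f)) := by
  rw [Divisor.correspondence_apply]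
  have h : ∀ w : Place K F', Divisor.pullbackAlong φ hφ D w = w.ord (φ f) := fun w => by
    rw [Divisor.pullbackAlong_apply, hD, Place.ord_restrictAlong φ hφ]
  letI := algebraAlong ψ
  haveI := isScalarTower_along ψ
  haveI := isIntegral_along ψ hψ
  haveI : Module.Finite F F' := hfin
  exact hN (φ f) (by simpa using hf) _ h v

theorem correspondence_single_nonneg (P : Place K F) (v : Place K F) :
    0 ≤ Divisor.correspondence φ ψ hφ hψ (Finsupp.single P 1) v := by
  classical
  rw [Divisor.correspondence_apply]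
  set E := Divisor.pullbackAlong φ hφ (Finsupp.single P 1) with hE
  have hE0 : ∀ w, 0 ≤ E w := fun w => by
    rw [hE, Divisor.pullbackAlong_apply, Finsupp.single_apply]
    split <;> positivity
  letI := algebraAlong ψ
  haveI := isScalarTower_along ψ
  haveI := isIntegral_along ψ hψ
  show 0 ≤ Divisor.pushforward F E v
  rw [Divisor.pushforward_apply]
  refine Finset.sum_nonneg fun w _ => ?_
  split
  · exact mul_nonneg (hE0 w) (Int.natCast_nonneg _)
  · exact le_rfl

end Effective

variable {A : ValuationSubring Qb} {N : ℕ} [NeZero N] {k : Type*} [Field k] {π : A →+* k}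
variable (r : Place Qb (modularFunctionFieldBar N) → Place k (modularFunctionFieldFullC k N))
variable {ℓ : ℕ} [NeZero ℓ]
variable [HasPrincipalDivisors Qb (modularFunctionFieldBar (N * ℓ))]
variable (hα : HeckeAlphaBarIntegral Qb N ℓ) (hβ : HeckeBetaBarIntegral Qb N ℓ)

/-- `r_* ∘ T_ℓ - (φ + ℓ φ⁻¹) ∘ r_*` on divisors. -/
def heckeDefect (φ : k ≃+* k) :
    Divisor Qb (modularFunctionFieldBar N) →+ Divisor k (modularFunctionFieldFullC k N) :=
  (reductionDivAlong r).comp (heckeDivBar hα hβ) -
    (DistribSMul.toAddMonoidHom (Divisor k (modularFunctionFieldFullC k N)) (coeffSemilinear N φ) +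
      ℓ • DistribSMul.toAddMonoidHom (Divisor k (modularFunctionFieldFullC k N))
        (coeffSemilinear N φ.symm)).comp (reductionDivAlong r)

theorem heckeDefect_apply (φ : k ≃+* k) (D : Divisor Qb (modularFunctionFieldBar N)) :
    heckeDefect r hα hβ φ D =
      Finsupp.mapDomain r (heckeDivBar hα hβ D) -
        (coeffSemilinear N φ • Finsupp.mapDomain r D +
          ℓ • (coeffSemilinear N φ.symm • Finsupp.mapDomain r D)) :=
  rfl

variable {r}

theorem heckeDefect_integral [Fact ℓ.Prime] [CharP k ℓ] (hr : IsPlaceReductionAlong A π N r)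
    (hfin : FiniteAlong Qb (heckeAlphaBar Qb N ℓ))
    (hN : NormFormulaAlong Qb (heckeAlphaBar Qb N ℓ) hfin)
    (hnorm : HeckeNormFormula N ℓ) (φ : k ≃+* k) (hφ : ∀ a, φ a = a ^ ℓ)
    {D : Divisor Qb (modularFunctionFieldBar N)}
    (hD : D ∈ integralPrincipalDivisors A π N) :
    heckeDefect r hα hβ φ D = 0 := by
  obtain ⟨y, hy, hyk, hne, hDy⟩ := hD
  obtain ⟨ζ, hζ, hform⟩ := hnorm
  have hℓ : ℓ.Prime := Fact.out
  have hζA : ∀ u : Qbˣ, u ^ ℓ = 1 → (u : Qb) ∈ A := fun u hu => by
    rcases A.mem_or_inv_mem (u : Qb) with h | h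
    · exact h
    · have h' : ((u : Qb)⁻¹) ^ (ℓ - 1) ∈ A := pow_mem h _
      have e : ((u : Qb)⁻¹) ^ (ℓ - 1) = (u : Qb) := by
        have hu' : (u : Qb) ^ ℓ = 1 := by rw [← Units.val_pow_eq_pow_val, hu, Units.val_one]
        rw [inv_pow]
        refine inv_eq_of_mul_eq_one_right ?_
        rw [← pow_succ, Nat.sub_add_cancel hℓ.one_le, hu']
      exact e ▸ h'
  let z : A := ⟨ζ, hζA ζ hζ⟩
  have hz : z ^ ℓ = 1 := Subtype.ext (by
    simp only [z, SubmonoidClass.coe_pow, OneMemClass.coe_one]
    rw [← Units.val_pow_eq_pow_val, hζ, Units.val_one])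
  let zu : Aˣ := Units.ofPowEqOne z ℓ hz (NeZero.ne ℓ)
  have hzu : Units.map A.subtype.toMonoidHom zu = ζ := Units.ext rfl
  have hzπ : Units.map π.toMonoidHom zu = 1 := Units.ext (frobenius_inj k ℓ (by
    simp only [frobenius_def, Units.val_one, one_pow]
    show π z ^ ℓ = 1
    rw [← map_pow, hz, map_one]))
  let w : LaurentSeries A :=
    qExpand A (ℓ * ℓ) y * ∏ b ∈ Finset.range ℓ, qTwist (zu ^ b) y
  set f : modularFunctionFieldBar N := ⟨coeffMap A.subtype y, hy⟩ with hf
  set g := normAlong (heckeAlphaBar Qb N ℓ) (heckeBetaBar Qb N ℓ f) with hg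
  have hw : coeffMap A.subtype w = qExpand Qb ℓ (g : LaurentSeries Qb) := by
    rw [hg, hform f, map_mul, map_prod, ModularCurve.coeffMap_qExpand]
    refine congrArg₂ _ rfl (Finset.prod_congr rfl fun b _ => ?_)
    rw [coeffMap_qTwist, map_pow, hzu]
  have hwk : coeffMap π w =
      qExpand k ℓ (coeffMap (φ : k →+* k) (coeffMap π y) *
        coeffMap (φ.symm : k →+* k) (coeffMap π y) ^ ℓ) := by
    have hfrob : ∀ u : LaurentSeries k, u ^ ℓ = coeffMap (φ : k →+* k) (qExpand k ℓ u) := by
      intro u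
      rw [pow_char_eq ℓ u]
      exact coeffMap_congr (RingHom.ext fun a => (hφ a).symm) _
    have hmul : ∀ u : LaurentSeries k, qExpand k (ℓ * ℓ) u = qExpand k ℓ (qExpand k ℓ u) :=
      fun u => (qExpand_qExpand ℓ ℓ u).symm
    have hs : coeffMap (φ.symm : k →+* k) (coeffMap π y) ^ ℓ = qExpand k ℓ (coeffMap π y) := by
      rw [hfrob, ModularCurve.coeffMap_qExpand, coeffMap_coeffMap,
        coeffMap_congr (g := RingHom.id k) (RingHom.ext fun a => φ.apply_symm_apply a),
        coeffMap_id]
    rw [map_mul, map_prod, hs, map_mul, ← ModularCurve.coeffMap_qExpand, ← hfrob,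
      ModularCurve.coeffMap_qExpand, hmul, mul_comm]
    congr 1
    rw [Finset.prod_congr rfl fun b _ => ?_, Finset.prod_const, Finset.card_range]
    rw [coeffMap_qTwist, map_pow, hzπ, one_pow, qTwist_one_apply]
  -- the norm has coefficients in `A`
  have hgA : ∀ n : ℤ, (g : LaurentSeries Qb).coeff n ∈ A := fun n => by
    rw [← qExpand_coeff_mul ℓ (g : LaurentSeries Qb) n, ← hw]
    exact (w.coeff _).2
  let gA : LaurentSeries A :=
    { coeff := fun n => ⟨(g : LaurentSeries Qb).coeff n, hgA n⟩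
      isPWO_support' := (g : LaurentSeries Qb).isPWO_support.mono fun n hn h => hn (Subtype.ext h) }
  have hgA_map : coeffMap A.subtype gA = (g : LaurentSeries Qb) := by
    ext n
    rfl
  have hgA_w : qExpand A ℓ gA = w := by
    apply HahnSeries.ext
    funext n
    apply Subtype.ext
    have h := congrArg (fun u : LaurentSeries Qb => u.coeff n) hw
    simp only [coeffMap_coeff] at h
    refine Eq.trans ?_ h.symm
    rw [← hgA_map, ← ModularCurve.coeffMap_qExpand]
    rfl
  have hgk : coeffMap π gA =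
      coeffMap (φ : k →+* k) (coeffMap π y) *
        coeffMap (φ.symm : k →+* k) (coeffMap π y) ^ ℓ := by
    apply qExpand_injective ℓ
    rw [← ModularCurve.coeffMap_qExpand, hgA_w, hwk]
  let yk : modularFunctionFieldFullC k N := ⟨coeffMap π y, hyk⟩
  let gk : modularFunctionFieldFullC k N :=
    coeffSemilinear N φ • yk * (coeffSemilinear N φ.symm • yk) ^ ℓ
  have hgk' : coeffMap π gA = (gk : LaurentSeries k) := hgk
  have hgmem : coeffMap A.subtype gA ∈ modularFunctionFieldBar N := hgA_map ▸ g.2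
  have hgkmem : coeffMap π gA ∈ modularFunctionFieldFullC k N := hgk' ▸ gk.2
  have hyk0 : yk ≠ 0 := fun h => hne (congrArg Subtype.val h)
  have h1 : coeffSemilinear N φ • yk ≠ 0 := by simpa using hyk0
  have h2 : coeffSemilinear N φ.symm • yk ≠ 0 := by simpa using hyk0
  have hgne : coeffMap π gA ≠ 0 := by
    rw [hgk']
    exact fun h => mul_ne_zero h1 (pow_ne_zero ℓ h2) (Subtype.ext h)
  have hf0 : f ≠ 0 := by
    intro h
    apply hne
    have hy0 : y = 0 := by
      ext n
      exact congrArg (fun u : LaurentSeries Qb => u.coeff n) (congrArg Subtype.val h)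
    rw [hy0, map_zero]
  rw [heckeDefect_apply, sub_eq_zero]
  refine Finsupp.ext fun Q => ?_
  rw [hr.2 gA hgmem hgkmem hgne (heckeDivBar hα hβ D) ?_ Q]
  · rw [show (⟨coeffMap π gA, hgkmem⟩ : modularFunctionFieldFullC k N) = gk from Subtype.ext hgk',
      show gk = coeffSemilinear N φ • yk * (coeffSemilinear N φ.symm • yk) ^ (ℓ : ℤ) by
        rw [zpow_natCast],
      Q.ord_mul h1 (zpow_ne_zero _ h2), Q.ord_zpow]
    have key : ∀ τ : k ≃+* k, (coeffSemilinear N τ • Finsupp.mapDomain r D) Q =
        Q.ord (coeffSemilinear N τ • yk) := fun τ => by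
      rw [SemilinearAut.divisor_smul_apply, hr.2 y hy hyk hne D hDy,
        ← SemilinearAut.ord_smul (coeffSemilinear N τ) ((coeffSemilinear N τ)⁻¹ • Q), smul_inv_smul]
    rw [Finsupp.add_apply, Finsupp.smul_apply, key, key, nsmul_eq_mul]
  · intro P
    refine (correspondence_apply_principal _ _ _ _ hfin hN hf0 hDy P).trans ?_
    congr 1

theorem heckeDefect_bound (hdeg : ∀ P : Place Qb (modularFunctionFieldBar N), P.deg = 1)
    (hFI : FundamentalIdentityAlong Qb (heckeBetaBar Qb N ℓ) hβ) (φ : k ≃+* k)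
    (P : Place Qb (modularFunctionFieldBar N)) (Q : Place k (modularFunctionFieldFullC k N)) :
    |heckeDefect r hα hβ φ (Finsupp.single P 1) Q| ≤
      (finrankAlong Qb (heckeBetaBar Qb N ℓ) : ℤ) + (1 + ℓ) := by
  classical
  set E := heckeDivBar hα hβ (Finsupp.single P 1) with hEdef
  have hE : ∀ v, 0 ≤ E v := correspondence_single_nonneg _ _ _ _ P
  have hsum : (E.sum fun _ n => n) = Divisor.degree E := by
    induction E using Finsupp.induction with
    | zero => simp
    | single_add v n E' _ _ ih =>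
      rw [Finsupp.sum_add_index' (fun _ => rfl) (fun _ _ _ => rfl), map_add, ih,
        Divisor.degree_single, hdeg, Finsupp.sum_single_index rfl]
      simp
  have hdE : Divisor.degree E = (finrankAlong Qb (heckeBetaBar Qb N ℓ) : ℤ) := by
    rw [hEdef]
    refine (Divisor.degree_correspondence _ _ _ _ hFI _).trans ?_
    rw [Divisor.degree_single, hdeg]
    simp
  have h1 : |Finsupp.mapDomain r E Q| ≤ (finrankAlong Qb (heckeBetaBar Qb N ℓ) : ℤ) := by
    have h := abs_apply_le_of_effective (B := 1)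
      ((Finsupp.applyAddHom Q).comp (reductionDivAlong r)) (fun v => by
        simp only [AddMonoidHom.comp_apply, reductionDivAlong_apply, Finsupp.mapDomain_single,
          Finsupp.applyAddHom_apply, Finsupp.single_apply]
        split <;> simp) hE
    rw [hsum, hdE, mul_one] at h
    exact h
  have hs : ∀ τ : k ≃+* k,
      |(coeffSemilinear N τ • Finsupp.mapDomain r (Finsupp.single P (1 : ℤ))) Q| ≤ 1 := fun τ => by
    rw [Finsupp.mapDomain_single, SemilinearAut.smul_single, Finsupp.single_apply]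
    split <;> simp
  rw [heckeDefect_apply, Finsupp.sub_apply, Finsupp.add_apply, Finsupp.smul_apply, nsmul_eq_mul,
    ← hEdef]
  refine (abs_sub _ _).trans (add_le_add h1 ((abs_add_le _ _).trans (add_le_add (hs _) ?_)))
  rw [abs_mul, Nat.abs_cast]
  calc (ℓ : ℤ) * _ ≤ (ℓ : ℤ) * 1 := mul_le_mul_of_nonneg_left (hs _) (Int.natCast_nonneg ℓ)
    _ = ℓ := mul_one _

omit [HasPrincipalDivisors Qb (modularFunctionFieldBar (N * ℓ))] in
/-- The Eichler–Shimura congruence on the reduction. -/
theorem reductionAlong_heckeOperatorAlong [Fact ℓ.Prime] [CharP k ℓ]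
    (h : ReductionInputsAlong A π N) (hb : HasEffectiveBound Qb (modularFunctionFieldBar N))
    (hdeg : ∀ P : Place Qb (modularFunctionFieldBar N), P.deg = 1)
    (hnorm : HeckeNormFormula N ℓ)
    (hin : HeckeInputsAlong Qb N ℓ) (φ : k ≃+* k) (hφ : ∀ a, φ a = a ^ ℓ) (x : JZero N) :
    reductionAlong A π N (heckeOperatorAlong Qb N ℓ x) =
      coeffSemilinear N φ • reductionAlong A π N x +
        ℓ • (coeffSemilinear N φ.symm • reductionAlong A π N x) := by
  obtain ⟨hα, hβ, hP, hfin, hFI, hN⟩ := hin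
  haveI := hP
  obtain ⟨D, rfl⟩ := Pic0.mk_surjective x
  rw [heckeOperatorAlong_eq hα hβ hFI hfin hN]
  erw [Pic0.correspondence_mk, reductionAlong_mk h]
  rw [reductionAlong_mk h, SemilinearAut.pic0_smul_mk, SemilinearAut.pic0_smul_mk]
  show Pic0.mk _ = Pic0.mk (_ + ℓ • _)
  refine congrArg Pic0.mk (Subtype.ext ?_)
  have h0 := apply_eq_zero_of_bounded' hb (heckeDefect h.choose hα hβ φ)
    (fun E hE => map_principal_eq_zero_of_integral h.choose_spec.2 _
      (fun E' hE' => heckeDefect_integral hα hβ h.choose_spec.1 hfin hN hnorm φ hφ hE') hE)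
    (heckeDefect_bound hα hβ hdeg hFI φ) D.2
  rw [heckeDefect_apply, sub_eq_zero] at h0
  exact h0

end FermatAgent.ES
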