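import Mathlib.RingTheory.Norm.Transitivity
import Mathlib.FieldTheory.IsAlgClosed.AlgebraicClosure
import Mathlib.FieldTheory.PrimitiveElement
import Mathlib.FieldTheory.Perfect

/-!
# A norm as a product over sufficiently many embeddings
-/

set_option autoImplicit false

noncomputable section

namespace FermatAgent.ES

/-- If `[F' : F]` is at most the number of given distinct embeddings extending `f`, the norm is
their product. -/
theorem map_norm_eq_prod_of_le {F F' M : Type*} [Field F] [Field F'] [Field M] [CharZero F]
    [Algebra F F'] [FiniteDimensional F F'] {ι : Type*} [Fintype ι] (f : F →+* M)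
    (σ : ι → F' →+* M) (hσ : ∀ i a, σ i (algebraMap F F' a) = f a) (x₀ : F')
    (hinj : Function.Injective fun i => σ i x₀) (hle : Module.finrank F F' ≤ Fintype.card ι)
    (x : F') : f (Algebra.norm F x) = ∏ i, σ i x := by
  let : Algebra F (AlgebraicClosure M) := ((algebraMap M (AlgebraicClosure M)).comp f).toAlgebra
  let τ : ι → F' →ₐ[F] AlgebraicClosure M := fun i =>
    { (algebraMap M (AlgebraicClosure M)).comp (σ i) with
      commutes' := fun a => congrArg (algebraMap M (AlgebraicClosure M)) (hσ i a) }
  have hτinj : Function.Injective τ := fun i j h => hinj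
    ((algebraMap M (AlgebraicClosure M)).injective
      (congrArg (fun φ : F' →ₐ[F] AlgebraicClosure M => φ x₀) h))
  have hbij : Function.Bijective τ := by
    refine (Fintype.bijective_iff_injective_and_card τ).mpr ⟨hτinj, ?_⟩
    refine le_antisymm (Fintype.card_le_of_injective τ hτinj) ?_
    rw [AlgHom.card]
    exact hle
  apply (algebraMap M (AlgebraicClosure M)).injective
  rw [map_prod]
  refine (Algebra.norm_eq_prod_embeddings F (AlgebraicClosure M) x).trans ?_
  exact (Fintype.prod_bijective τ hbij _ _ fun i => rfl).symm

end FermatAgent.ES
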