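import Fermat.Agent.ES.Conjugates
import Fermat.Agent.ES.NormProd
import Fermat.Agent.ES.Hecke

/-!
# `HeckeNormFormula N ℓ` from the degree of level `N ℓ` over level `N`
-/

set_option autoImplicit false
set_option linter.style.haveILetI false

noncomputable section

open AlgebraicCurve ModularCurve

namespace FermatAgent.ES

local notation "Qb" => AlgebraicClosure ℚ

/-- `q ↦ c q` as an algebra map. -/
def qTwistAlg {K : Type*} [Field K] (c : Kˣ) : LaurentSeries K →ₐ[K] LaurentSeries K where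
  __ := qTwist c
  commutes' a := by
    show qTwist c (algebraMap K (LaurentSeries K) a) = algebraMap K (LaurentSeries K) a
    rw [algebraMap_laurentSeries_eq_single, qTwist_single, zpow_zero, Units.val_one, one_mul]

/-- `map_norm_eq_prod_of_le` along an algebra map. -/
theorem map_normAlong_eq_prod {K F F' M : Type*} [Field K] [Field F] [Field F'] [Field M]
    [CharZero F] [Algebra K F] [Algebra K F'] (φ : F →ₐ[K] F') (hfin : FiniteAlong K φ)
    {ι : Type*} [Fintype ι] (f : F →+* M) (σ : ι → F' →+* M) (hσ : ∀ i a, σ i (φ a) = f a)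
    (x₀ : F') (hinj : Function.Injective fun i => σ i x₀)
    (hle : finrankAlong K φ ≤ Fintype.card ι) (x : F') :
    f (normAlong φ x) = ∏ i, σ i x := by
  letI := algebraAlong φ
  haveI : Module.Finite F F' := hfin
  exact map_norm_eq_prod_of_le f σ hσ x₀ hinj hle x

variable (N ℓ : ℕ) [NeZero N] [NeZero ℓ]

/-- The conjugate fixing the cusp `∞`. -/
def embInfty : modularFunctionFieldBar (N * ℓ) →ₐ[Qb] LaurentSeries Qb :=
  (qExpandAlgHomC Qb ℓ).comp (modularFunctionFieldBar (N * ℓ)).val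

variable {N ℓ}

/-- `j (q)` at level `N`. -/
def jOne (N : ℕ) [NeZero N] : modularFunctionFieldBar N :=
  ⟨jExp Qb N ⟨1, one_dvd N⟩, by
    rw [modularFunctionFieldBar, laurentBaseChange_full_eq_adjoin]
    exact IntermediateField.subset_adjoin _ _ ⟨_, rfl⟩⟩

theorem exists_embTwist (hℓ : ℓ.Prime) (hℓN : ¬ ℓ ∣ N) {ζ : Qbˣ} {b : ℕ}
    (hζ : Units.map qbarEmb.toMonoidHom (ζ ^ b) = FermatAgent.ModFun.expUnit ((b : ℝ) / ℓ)) :
    ∃ σ : modularFunctionFieldBar (N * ℓ) →ₐ[Qb] LaurentSeries Qb,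
      (∀ f, σ (heckeAlphaBar Qb N ℓ f) = qExpand Qb ℓ (f : LaurentSeries Qb)) ∧
        ∀ f, σ (heckeBetaBar Qb N ℓ f) = qTwist (ζ ^ b) (f : LaurentSeries Qb) := by
  obtain ⟨σ₀, hσ₀⟩ := exists_algHom_adjoin_range (jExp Qb (N * ℓ)) (conjExp N ℓ (ζ ^ b))
    (aeval_conjExp_eq_zero_iff hℓ hℓN hζ)
  let σ : modularFunctionFieldBar (N * ℓ) →ₐ[Qb] LaurentSeries Qb :=
    σ₀.comp (IntermediateField.inclusion (laurentBaseChange_full_eq_adjoin (N * ℓ) Qb).le)
  have hσ : ∀ (d : {d : ℕ // d ∣ N * ℓ}) (h : jExp Qb (N * ℓ) d ∈ modularFunctionFieldBar (N * ℓ)),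
      σ ⟨_, h⟩ = conjExp N ℓ (ζ ^ b) d := fun d h => hσ₀ d
  refine ⟨σ, fun f => ?_, fun f => ?_⟩
  · have e : σ.comp (heckeAlphaBar Qb N ℓ) =
        (qExpandAlgHomC Qb ℓ).comp (modularFunctionFieldBar N).val := by
      refine algHom_ext_of_range (jExp Qb N) (laurentBaseChange_full_eq_adjoin N Qb) fun d hd => ?_
      have hmem : jExp Qb (N * ℓ) ⟨d.1, d.2.trans (dvd_mul_right N ℓ)⟩ ∈
          modularFunctionFieldBar (N * ℓ) :=
        (heckeAlphaBar Qb N ℓ ⟨_, hd⟩).2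
      have e1 : heckeAlphaBar Qb N ℓ ⟨_, hd⟩ = ⟨_, hmem⟩ := Subtype.ext rfl
      rw [AlgHom.comp_apply, e1, hσ, conjExp, dif_pos d.2]
      rfl
    exact congrArg (fun φ : modularFunctionFieldBar N →ₐ[Qb] LaurentSeries Qb => φ f) e
  · have e : σ.comp (heckeBetaBar Qb N ℓ) =
        (qTwistAlg (ζ ^ b)).comp (modularFunctionFieldBar N).val := by
      refine algHom_ext_of_range (jExp Qb N) (laurentBaseChange_full_eq_adjoin N Qb) fun d hd => ?_
      obtain ⟨d, hdN⟩ := d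
      haveI : NeZero d := ⟨ne_zero_of_dvd_ne_zero (NeZero.ne N) hdN⟩
      have hdvd : d * ℓ ∣ N * ℓ := mul_dvd_mul_right hdN ℓ
      have e2 : qExpand Qb ℓ (jExp Qb N ⟨d, hdN⟩) = jExp Qb (N * ℓ) ⟨d * ℓ, hdvd⟩ := by
        simp only [jExp, qExpand_qExpand]
        exact qExpand_congr (mul_comm ℓ d) _
      have hmem : jExp Qb (N * ℓ) ⟨d * ℓ, hdvd⟩ ∈ modularFunctionFieldBar (N * ℓ) :=
        e2 ▸ (heckeBetaBar Qb N ℓ ⟨_, hd⟩).2
      have e1 : heckeBetaBar Qb N ℓ ⟨_, hd⟩ = ⟨_, hmem⟩ := Subtype.ext e2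
      have hnd : ¬ d * ℓ ∣ N := fun hh => hℓN ((dvd_mul_left ℓ d).trans hh)
      have hdiv : d * ℓ / ℓ = d := Nat.mul_div_cancel d hℓ.pos
      rw [AlgHom.comp_apply, e1, hσ, conjExp, dif_neg hnd,
        dif_pos (show d * ℓ / ℓ ∣ N by rw [hdiv]; exact hdN)]
      show qTwist (ζ ^ b) _ = qTwist (ζ ^ b) (jExp Qb N ⟨d, hdN⟩)
      congr 2
      exact Subtype.ext hdiv
    exact congrArg (fun φ : modularFunctionFieldBar N →ₐ[Qb] LaurentSeries Qb => φ f) e

theorem coeff_qExpand_sq_jqModC (hℓ : ℓ.Prime) :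
    (qExpand Qb (ℓ * ℓ) (jqModC Qb)).coeff (-1) = 0 := by
  refine qExpand_coeff_of_not_dvd _ _ fun h => ?_
  have h' : ((ℓ * ℓ : ℕ) : ℤ) ∣ (1 : ℤ) := (dvd_neg).mp h
  have := Nat.eq_one_of_mul_eq_one_right (Nat.dvd_one.mp (Int.natCast_dvd_natCast.mp h'))
  exact hℓ.ne_one this

theorem coeff_qTwist_jqModC (c : Qbˣ) :
    (qTwist c (jqModC Qb)).coeff (-1) = ((c⁻¹ : Qbˣ) : Qb) := by
  rw [qTwist_coeff, coeff_jqModC_neg_one, mul_one, zpow_neg_one]

/-- The norm formula from the degree bound. -/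
theorem heckeNormFormula_of_degree (hℓ : ℓ.Prime) (hℓN : ¬ ℓ ∣ N)
    (hfin : FiniteAlong Qb (heckeAlphaBar Qb N ℓ))
    (hdeg : finrankAlong Qb (heckeAlphaBar Qb N ℓ) ≤ ℓ + 1) : HeckeNormFormula N ℓ := by
  obtain ⟨ζ, hζ1, hζ⟩ := exists_root_qbarEmb ℓ
  have hprim : IsPrimitiveRoot ζ ℓ := by
    have h1 : IsPrimitiveRoot ((FermatAgent.ModFun.expUnit ((1 : ℝ) / ℓ) : ℂˣ) : ℂ) ℓ := by
      convert Complex.isPrimitiveRoot_exp ℓ (NeZero.ne ℓ) using 1
      simp only [FermatAgent.ModFun.expUnit, Units.val_mk0]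
      congr 1
      push_cast
      ring
    have h2 := hζ 1
    rw [pow_one, Nat.cast_one] at h2
    rw [← h2] at h1
    exact IsPrimitiveRoot.coe_units_iff.mp
      (IsPrimitiveRoot.of_map_of_injective (f := qbarEmb) h1 qbarEmb.injective)
  choose σ hσα hσβ using fun b : Fin ℓ => exists_embTwist hℓ hℓN (hζ b)
  refine ⟨ζ, hζ1, fun f => ?_⟩
  let emb : Option (Fin ℓ) → modularFunctionFieldBar (N * ℓ) →+* LaurentSeries Qb := fun i =>
    (i.elim (embInfty N ℓ) σ).toRingHom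
  let g : modularFunctionFieldBar N →+* LaurentSeries Qb :=
    (qExpand Qb ℓ).comp (modularFunctionFieldBar N).val.toRingHom
  have hemb : ∀ i a, emb i (heckeAlphaBar Qb N ℓ a) = g a := by
    rintro (_ | b) a
    · exact congrArg (qExpand Qb ℓ) (coe_heckeAlphaBar N ℓ a)
    · exact hσα b a
  have hj : ((jOne N : modularFunctionFieldBar N) : LaurentSeries Qb) = jqModC Qb :=
    qExpand_one_apply _
  have hinj : Function.Injective fun i => emb i (heckeBetaBar Qb N ℓ (jOne N)) := by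
    have hnone : (emb none (heckeBetaBar Qb N ℓ (jOne N))).coeff (-1) = 0 := by
      show (qExpand Qb ℓ ((heckeBetaBar Qb N ℓ (jOne N) :
        modularFunctionFieldBar (N * ℓ)) : LaurentSeries Qb)).coeff (-1) = 0
      rw [coe_heckeBetaBar, hj, qExpand_qExpand]
      exact coeff_qExpand_sq_jqModC hℓ
    have hsome : ∀ b : Fin ℓ, (emb (some b) (heckeBetaBar Qb N ℓ (jOne N))).coeff (-1) =
        (((ζ ^ (b : ℕ))⁻¹ : Qbˣ) : Qb) := fun b => by
      show (σ b (heckeBetaBar Qb N ℓ (jOne N))).coeff (-1) = _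
      rw [hσβ, hj, coeff_qTwist_jqModC]
    rintro (_ | a) (_ | b) h
    · rfl
    · exact absurd ((congrArg (fun z : LaurentSeries Qb => z.coeff (-1)) h).symm.trans hnone)
        (by rw [hsome]; exact Units.ne_zero _)
    · exact absurd ((congrArg (fun z : LaurentSeries Qb => z.coeff (-1)) h).trans hnone)
        (by rw [hsome]; exact Units.ne_zero _)
    · have h' := congrArg (fun z : LaurentSeries Qb => z.coeff (-1)) h
      simp only [hsome] at h'
      exact congrArg some (Fin.ext (hprim.pow_inj a.2 b.2 (inv_injective (Units.ext h'))))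
  have hcard : finrankAlong Qb (heckeAlphaBar Qb N ℓ) ≤ Fintype.card (Option (Fin ℓ)) := by
    rw [Fintype.card_option, Fintype.card_fin]
    exact hdeg
  have key := map_normAlong_eq_prod (heckeAlphaBar Qb N ℓ) hfin g emb hemb (heckeBetaBar Qb N ℓ (jOne N)) hinj hcard
    (heckeBetaBar Qb N ℓ f)
  refine key.trans ?_
  rw [Fintype.prod_option, ← Fin.prod_univ_eq_prod_range]
  refine congrArg₂ (· * ·) ?_ (Finset.prod_congr rfl fun b _ => hσβ b f)
  show qExpand Qb ℓ ((heckeBetaBar Qb N ℓ f : modularFunctionFieldBar (N * ℓ)) :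
    LaurentSeries Qb) = _
  rw [coe_heckeBetaBar, qExpand_qExpand]

end FermatAgent.ES
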