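import Fermat.Agent.ES.ForGalRep
import Fermat.Agent.Igusa.GoodRed.Concrete
import Fermat.Agent.ES.NormFormula
import Fermat.Agent.ES.Degree
import Fermat.Prelude.Def_ModularCurve_HeckeOperatorTotal

/-!
# Eichler–Shimura for `JZero N`

The inputs and the final statements.
-/

set_option autoImplicit false
set_option linter.style.haveILetI false

noncomputable section

open AlgebraicCurve ModularCurve

namespace FermatAgent.ES

local notation "Qb" => AlgebraicClosure ℚ

theorem heckeInputsAlong_fieldBar (N ℓ : ℕ) [NeZero N] [NeZero ℓ] : HeckeInputsAlong Qb N ℓ := by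
  haveI := isFunctionField1_fieldBar N
  haveI := isFunctionField1_fieldBar (N * ℓ)
  exact heckeInputsAlong_intro (FermatAgent.Curve.isIntegralAlong _)
    (FermatAgent.Curve.isIntegralAlong _) (FermatAgent.Curve.fundamentalIdentityAlong _ _)
    (FermatAgent.Curve.finiteAlong _) (FermatAgent.Curve.normFormulaAlong _ _)

theorem heckeNormFormula (N ℓ : ℕ) [NeZero N] [NeZero ℓ] (hℓ : ℓ.Prime) (hℓN : ¬ ℓ ∣ N) :
    HeckeNormFormula N ℓ :=
  heckeNormFormula_of_degree hℓ hℓN (finiteAlong_heckeAlphaBar N ℓ)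
    (finrankAlong_heckeAlphaBar_le N ℓ hℓ hℓN)

/-- Reduction exists and is injective on prime-to-`ℓ` torsion. -/
theorem reductionInputs_and_injective (N ℓ : ℕ) [NeZero N] (hℓ : ℓ.Prime) (hℓN : ¬ ℓ ∣ N)
    (A : ValuationSubring Qb) (hA : A.LiesOverPrime ℓ) :
    ReductionInputsModL A N ∧
      ∀ (m : ℕ), ¬ ℓ ∣ m → ∀ z : JZero N, m • z = 0 → reductionModL A N z = 0 → z = 0 :=
  have h := Igusa.Down.reductionInputsModL N hℓ hℓN hA
  ⟨h, fun _ hm _ hmz hz =>
    Igusa.Down.eq_zero_of_reductionModL_eq_zero N hℓ hℓN hA h hm hmz hz⟩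

/-- All inputs at the good places. -/
theorem goodInputs (N : ℕ) [NeZero N] : GoodInputs N := by
  intro ℓ _ hℓ hℓN A hA
  exact
    { reductionInputs := (reductionInputs_and_injective N ℓ hℓ hℓN A hA).1
      injective := (reductionInputs_and_injective N ℓ hℓ hℓN A hA).2
      effectiveBound := hasEffectiveBound_fieldBar N
      deg_eq_one := deg_eq_one_fieldBar N
      norm := heckeNormFormula N ℓ hℓ hℓN
      heckeInputs := heckeInputsAlong_fieldBar N ℓ }

theorem torsionUnramified (N p : ℕ) [NeZero N] : FermatAgent.GalRep.TorsionUnramified N p :=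
  torsionUnramified_of_goodInputs (goodInputs N) p

theorem torsionFrobQuadratic (N p : ℕ) [NeZero N] :
    FermatAgent.GalRep.TorsionFrobQuadratic N p :=
  torsionFrobQuadratic_of_goodInputs (goodInputs N) p

theorem specializationExists_JZero (N p : ℕ) [NeZero N] (hcomm : HeckeOperatorsCommuteBar N) :
    letI := heckeModuleBar N
    ∀ (_ : SMulCommClass (Qb ≃ₐ[ℚ] Qb) HeckeAlg (JZero N)),
      SpecializationExists (K := ℚ) (L := Qb) N p (JZero N) :=
  specializationExists_of_goodInputs N p hcomm (goodInputs N)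

end FermatAgent.ES
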