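import Mathlib.FieldTheory.IntermediateField.Adjoin.Algebra
import Mathlib.RingTheory.Adjoin.Basic
import Mathlib.Algebra.MvPolynomial.Eval
import Mathlib.RingTheory.Ideal.Quotient.Operations
import Fermat.Prelude.Def_ModularCurve_ArithmeticGalois
import Fermat.Prelude.Def_ModularCurve_X0ModL

/-!
# Embeddings of the modular function field

Homomorphisms out of `K(v)`, and the generators of `modularFunctionFieldBar M`.
-/

set_option autoImplicit false
set_option linter.style.haveILetI false

noncomputable section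

open ModularCurve
open scoped IntermediateField.algebraAdjoinAdjoin

namespace FermatAgent.ES

section Emb

variable {K Ω Ω' : Type*} [Field K] [Field Ω] [Field Ω'] [Algebra K Ω] [Algebra K Ω'] {ι : Type*}

/-- Elements with the same polynomial relations generate isomorphic fields. -/
theorem exists_algHom_adjoin_range (v : ι → Ω) (w : ι → Ω')
    (h : ∀ P : MvPolynomial ι K, MvPolynomial.aeval v P = 0 ↔ MvPolynomial.aeval w P = 0) :
    ∃ σ : IntermediateField.adjoin K (Set.range v) →ₐ[K] Ω',
      ∀ i, σ ⟨v i, IntermediateField.subset_adjoin K _ ⟨i, rfl⟩⟩ = w i := by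
  let f : MvPolynomial ι K →ₐ[K] Algebra.adjoin K (Set.range v) :=
    (MvPolynomial.aeval v).codRestrict _ fun P => by
      rw [Algebra.adjoin_range_eq_range_aeval]
      exact ⟨P, rfl⟩
  have hf : Function.Surjective f := by
    rintro ⟨x, hx⟩
    rw [Algebra.adjoin_range_eq_range_aeval] at hx
    obtain ⟨P, rfl⟩ := hx
    exact ⟨P, rfl⟩
  have hker : ∀ P ∈ RingHom.ker f, MvPolynomial.aeval w P = 0 := fun P hP =>
    (h P).mp (congrArg Subtype.val (RingHom.mem_ker.mp hP))
  let g : Algebra.adjoin K (Set.range v) →ₐ[K] Ω' :=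
    (Ideal.Quotient.liftₐ (RingHom.ker f) (MvPolynomial.aeval w) hker).comp
      (Ideal.quotientKerAlgEquivOfSurjective hf).symm.toAlgHom
  have hg : ∀ P, g (f P) = MvPolynomial.aeval w P := fun P => by
    have e : (Ideal.quotientKerAlgEquivOfSurjective hf).symm (f P) =
        Ideal.Quotient.mk (RingHom.ker f) P := by
      rw [AlgEquiv.symm_apply_eq]
      rfl
    show Ideal.Quotient.liftₐ (RingHom.ker f) (MvPolynomial.aeval w) hker
      ((Ideal.quotientKerAlgEquivOfSurjective hf).symm (f P)) = _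
    rw [e]
    rfl
  have hinj : Function.Injective g := by
    rw [injective_iff_map_eq_zero]
    intro x hx
    obtain ⟨P, rfl⟩ := hf x
    rw [hg] at hx
    exact Subtype.ext ((h P).mpr hx)
  refine ⟨IsFractionRing.liftAlgHom hinj, fun i => ?_⟩
  have hvi : v i ∈ Algebra.adjoin K (Set.range v) := Algebra.subset_adjoin ⟨i, rfl⟩
  have e : (⟨v i, IntermediateField.subset_adjoin K _ ⟨i, rfl⟩⟩ :
      IntermediateField.adjoin K (Set.range v)) =
      algebraMap (Algebra.adjoin K (Set.range v)) (IntermediateField.adjoin K (Set.range v))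
        (f (MvPolynomial.X i)) :=
    Subtype.ext (MvPolynomial.aeval_X v i).symm
  rw [e, IsFractionRing.coe_liftAlgHom, IsFractionRing.lift_algebraMap]
  exact (hg _).trans (MvPolynomial.aeval_X w i)

/-- Algebra maps out of an adjoined field agree if they do on the generators. -/
theorem algHom_ext_of_range {E : IntermediateField K Ω} (v : ι → Ω)
    (hE : E = IntermediateField.adjoin K (Set.range v)) {φ ψ : E →ₐ[K] Ω'}
    (h : ∀ i (hi : v i ∈ E), φ ⟨v i, hi⟩ = ψ ⟨v i, hi⟩) : φ = ψ := by
  subst hE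
  refine AlgHom.ext ?_
  rintro ⟨x, hx⟩
  induction hx using IntermediateField.adjoin_induction with
  | mem x hx =>
    obtain ⟨i, rfl⟩ := hx
    exact h i _
  | algebraMap x => exact (φ.commutes x).trans (ψ.commutes x).symm
  | add x y hx hy ihx ihy =>
    exact (map_add φ ⟨x, hx⟩ ⟨y, hy⟩).trans ((congrArg₂ (· + ·) ihx ihy).trans
      (map_add ψ ⟨x, hx⟩ ⟨y, hy⟩).symm)
  | inv x hx ih =>
    exact (map_inv₀ φ ⟨x, hx⟩).trans ((congrArg (·⁻¹) ih).trans (map_inv₀ ψ ⟨x, hx⟩).symm)
  | mul x y hx hy ihx ihy =>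
    exact (map_mul φ ⟨x, hx⟩ ⟨y, hy⟩).trans ((congrArg₂ (· * ·) ihx ihy).trans
      (map_mul ψ ⟨x, hx⟩ ⟨y, hy⟩).symm)

end Emb

section Generators

variable (R : Type*) [CommRing R] (M : ℕ) [NeZero M]

/-- `j (q ^ d)`, `d ∣ M`, with coefficients in `R`. -/
def jExp (d : {d : ℕ // d ∣ M}) : LaurentSeries R :=
  haveI : NeZero d.1 := ⟨ne_zero_of_dvd_ne_zero (NeZero.ne M) d.2⟩
  qExpand R d.1 (jqModC R)

theorem coeffMap_jExp {S : Type*} [CommRing S] (φ : R →+* S) (d : {d : ℕ // d ∣ M}) :
    coeffMap φ (jExp R M d) = jExp S M d := by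
  simp [jExp, ModularCurve.coeffMap_qExpand, coeffMap_jqModC]

theorem coeffEmb_jqd (L : Type*) [Field L] [Algebra ℚ L] (d : ℕ) [NeZero d] :
    coeffEmb L (qExpand ℚ d jq) = qExpand L d (jqModC L) := by
  rw [coeffEmb, ModularCurve.coeffMap_qExpand, ← jqModC_rat, coeffMap_jqModC]

theorem laurentBaseChange_full_eq_adjoin (L : Type*) [Field L] [Algebra ℚ L] :
    laurentBaseChange L (modularFunctionFieldFull M) =
      IntermediateField.adjoin L (Set.range (jExp L M)) := by
  refine le_antisymm ?_ ?_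
  · rw [laurentBaseChange, IntermediateField.adjoin_le_iff]
    rintro _ ⟨x, hx, rfl⟩
    rw [SetLike.mem_coe] at hx ⊢
    induction hx using IntermediateField.adjoin_induction with
    | mem y hy =>
      obtain ⟨d, hd, hdM, rfl⟩ := hy
      haveI := hd
      rw [coeffEmb_jqd]
      exact IntermediateField.subset_adjoin L _ ⟨⟨d, hdM⟩, rfl⟩
    | algebraMap y =>
      rw [ModularCurve.algebraMap_apply_eq_single, coeffEmb, coeffMap_single,
        ← algebraMap_laurentSeries_eq_single]
      exact IntermediateField.algebraMap_mem _ _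
    | add _ _ _ _ hx hy => simpa using add_mem hx hy
    | inv _ _ hx => simpa using inv_mem hx
    | mul _ _ _ _ hx hy => simpa using mul_mem hx hy
  · rw [IntermediateField.adjoin_le_iff]
    rintro _ ⟨⟨d, hdM⟩, rfl⟩
    haveI : NeZero d := ⟨ne_zero_of_dvd_ne_zero (NeZero.ne M) hdM⟩
    show qExpand L d (jqModC L) ∈ _
    rw [← coeffEmb_jqd]
    exact coeffEmb_mem_laurentBaseChange L (jqd_mem_full M hdM)

end Generators

end FermatAgent.ES
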