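import Fermat.Agent.ES.Specialisation

/-!
# Existence of specialisations of `JZero N`

`specializationExists_of_goodInputs` (statement S37) from the inputs at the good places.
-/

set_option autoImplicit false
set_option linter.style.haveILetI false

noncomputable section

open AlgebraicCurve ModularCurve

namespace FermatAgent.ES

local notation "Qb" => AlgebraicClosure ℚ

/-- The inputs at all places over primes not dividing the level. -/
def GoodInputs (N : ℕ) [NeZero N] : Prop :=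
  ∀ (ℓ : ℕ) [NeZero ℓ], ℓ.Prime → ¬ ℓ ∣ N → ∀ A : ValuationSubring Qb, A.LiesOverPrime ℓ →
    GoodPlaceInputs N ℓ A

theorem not_dvd_pow_of_not_dvd_mul {N p ℓ : ℕ} (hℓ : ℓ.Prime) (h : ¬ ℓ ∣ N * p) (n : ℕ) :
    ¬ ℓ ∣ N ∧ ¬ ℓ ∣ p ^ n :=
  ⟨fun hd => h (hd.trans (dvd_mul_right N p)),
    fun hd => h ((hℓ.dvd_of_dvd_pow hd).trans (dvd_mul_left p N))⟩

section Kernel

variable (A : ValuationSubring Qb) (N : ℕ) [NeZero N] [Module HeckeAlg (JZero N)]

/-- The largest Hecke-stable subgroup killed by reduction. -/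
def specKernel : Submodule HeckeAlg (JZero N) where
  carrier := {x | ∀ t : HeckeAlg, reductionModL A N (t • x) = 0}
  zero_mem' t := by rw [smul_zero, map_zero]
  add_mem' {x y} hx hy t := by rw [smul_add, map_add, hx t, hy t, add_zero]
  smul_mem' c x hx t := by rw [← mul_smul]; exact hx (t * c)

omit [NeZero N] in
theorem reductionModL_eq_zero_of_mem_specKernel {x : JZero N} (hx : x ∈ specKernel A N) :
    reductionModL A N x = 0 := by
  simpa only [one_smul] using hx 1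

variable {A N} [SMulCommClass (Qb ≃ₐ[ℚ] Qb) HeckeAlg (JZero N)] {ℓ : ℕ} [NeZero ℓ]

theorem galois_smul_mem_specKernel (hi : GoodPlaceInputs N ℓ A) {σ : Qb ≃ₐ[ℚ] Qb}
    (hσ : σ ∈ A.decompositionSubgroup ℚ) {x : JZero N} (hx : x ∈ specKernel A N) :
    σ • x ∈ specKernel A N := fun t => by
  rw [← smul_comm σ t x]
  have h := reductionModL_smul hi ⟨σ, hσ⟩ (t • x)
  rw [hx t] at h
  exact h.trans (smul_zero (A := JZeroC (IsLocalRing.ResidueField A) N)
    (coeffSemilinear N (residueAut ⟨σ, hσ⟩)))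

theorem isSpecialization_mkQ (p : ℕ) (hℓp : ¬ ℓ ∣ p) (hℓ : ℓ.Prime)
    (hi : GoodPlaceInputs N ℓ A) {σ₀ : Qb ≃ₐ[ℚ] Qb} (hσ₀ : A.IsFrobeniusAt σ₀ ℓ) :
    ∃ F : (JZero N ⧸ specKernel A N) →+ (JZero N ⧸ specKernel A N),
      IsSpecialization (K := ℚ) p (JZero N) (JZero N ⧸ specKernel A N) A ℓ
          (specKernel A N).mkQ.toAddMonoidHom F ∧
        ∀ x : JZero N, F ((specKernel A N).mkQ x) = (specKernel A N).mkQ (σ₀ • x) := by
  let F : (JZero N ⧸ specKernel A N) →+ (JZero N ⧸ specKernel A N) :=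
    QuotientAddGroup.map _ _ (DistribSMul.toAddMonoidHom (JZero N) σ₀)
      fun x hx => galois_smul_mem_specKernel hi hσ₀.mem_decompositionSubgroup hx
  refine ⟨F, ⟨fun T x => map_smul (specKernel A N).mkQ T x, ?_, ?_, ?_⟩, fun x => rfl⟩
  · intro σ hσ x
    refine (Submodule.Quotient.eq _).mpr fun t => ?_
    rw [smul_sub, map_sub, ← smul_comm σ t x, reductionModL_inertia hi hσ, sub_self]
  · intro σ hσ x
    refine (Submodule.Quotient.eq _).mpr fun t => ?_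
    show reductionModL A N (t • (σ • x - σ₀ • x)) = 0
    rw [smul_sub, map_sub, ← smul_comm σ t x, ← smul_comm σ₀ t x,
      reductionModL_frobenius_eq hi hσ hσ₀, sub_self]
  · rintro x ⟨n, hn⟩ hx
    exact hi.injective _ (fun hd => hℓp (hℓ.dvd_of_dvd_pow hd)) x hn
      (reductionModL_eq_zero_of_mem_specKernel A N ((Submodule.Quotient.mk_eq_zero _).mp hx))

theorem specialFibreRelation_mkQ (hℓ : ℓ.Prime) (hA : A.LiesOverPrime ℓ)
    (hi : GoodPlaceInputs N ℓ A) {σ₀ : Qb ≃ₐ[ℚ] Qb} (hσ₀ : A.IsFrobeniusAt σ₀ ℓ)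
    (hT : ∀ x : JZero N, heckeGen ⟨ℓ, hℓ⟩ • x = heckeOperatorAlong Qb N ℓ x)
    (F : (JZero N ⧸ specKernel A N) →+ (JZero N ⧸ specKernel A N))
    (hF : ∀ x : JZero N, F ((specKernel A N).mkQ x) = (specKernel A N).mkQ (σ₀ • x)) :
    SpecialFibreRelation (JZero N ⧸ specKernel A N) ℓ hℓ F := by
  intro y
  obtain ⟨x, rfl⟩ := (specKernel A N).mkQ_surjective y
  have hmem : σ₀ • σ₀ • x - heckeGen ⟨ℓ, hℓ⟩ • (σ₀ • x) + ℓ • x ∈ specKernel A N := by
    intro t
    have e : t • (σ₀ • σ₀ • x - heckeGen ⟨ℓ, hℓ⟩ • (σ₀ • x) + ℓ • x) =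
        σ₀ • σ₀ • (t • x) - heckeOperatorAlong Qb N ℓ (σ₀ • (t • x)) + ℓ • (t • x) := by
      rw [← hT, smul_comm σ₀ t x, smul_comm σ₀ t (σ₀ • x), smul_comm (heckeGen ⟨ℓ, hℓ⟩) t,
        smul_comm ℓ t x, ← smul_sub, ← smul_add]
    rw [e]
    exact reductionModL_quadratic hi hℓ hA hσ₀ (t • x)
  rw [hF, hF, ← LinearMap.map_smul, ← map_nsmul, ← map_sub, ← map_add]
  exact (Submodule.Quotient.mk_eq_zero _).mpr hmem

end Kernel

theorem specializationExists_of_goodInputs (N p : ℕ) [NeZero N]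
    (hcomm : HeckeOperatorsCommuteBar N) (hin : GoodInputs N) :
    letI := heckeModuleBar N
    ∀ (_ : SMulCommClass (Qb ≃ₐ[ℚ] Qb) HeckeAlg (JZero N)),
      SpecializationExists (K := ℚ) (L := Qb) N p (JZero N) := by
  letI := heckeModuleBar N
  intro hSM ℓ hℓ hℓNp A hA
  haveI : NeZero ℓ := ⟨hℓ.ne_zero⟩
  obtain ⟨hℓN, hℓp⟩ := not_dvd_pow_of_not_dvd_mul hℓ hℓNp 1
  rw [pow_one] at hℓp
  have hi := hin ℓ hℓ hℓN A hA
  obtain ⟨σ₀, hσ₀⟩ := FermatAgent.RT.exists_isFrobeniusAt hℓ hA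
  obtain ⟨F, hspec, hF⟩ := isSpecialization_mkQ p hℓp hℓ hi hσ₀
  exact ⟨JZero N ⧸ specKernel A N, inferInstance, inferInstance,
    (specKernel A N).mkQ.toAddMonoidHom, F, hspec,
    specialFibreRelation_mkQ hℓ hA hi hσ₀ (fun x => heckeModuleBar_heckeGen_smul hcomm ⟨ℓ, hℓ⟩ x)
      F hF⟩

end FermatAgent.ES
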