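import Fermat.Prelude.Def_AlgebraicCurve_DivisorClassGroup
import Mathlib.Algebra.Order.BigOperators.Group.Finset
import Mathlib.Tactic

/-!
# Bounded additive maps on divisors

Additive maps on divisors which kill principal divisors and are bounded on points
vanish on divisors of degree zero.
-/

set_option autoImplicit false

noncomputable section

open AlgebraicCurve

namespace FermatAgent.ES

variable {K F : Type*} [Field K] [Field F] [Algebra K F]

variable (K F) in
/-- Riemann's bound in the weak form used here: up to principal divisors every divisor of degree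
zero is an effective divisor of total multiplicity `M` minus `M • P₀`. -/
def HasEffectiveBound : Prop :=
  ∃ (M : ℕ) (P₀ : Place K F), ∀ D ∈ Divisor.degZero (K := K) (F := F),
    ∃ E : Divisor K F, (∀ P, 0 ≤ E P) ∧ (E.sum fun _ n => n) = (M : ℤ) ∧
      D + Finsupp.single P₀ (M : ℤ) - E ∈ Divisor.principal (K := K) (F := F)

/-- `HasEffectiveBound` from Riemann's inequality (existence of sections in large degree). -/
theorem hasEffectiveBound_of_riemann [HasPrincipalDivisors K F] (P₀ : Place K F)
    (hdeg : ∀ P : Place K F, P.deg = 1) (M : ℕ)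
    (hR : ∀ D : Divisor K F, Divisor.degree D = (M : ℤ) →
      ∃ f : F, f ≠ 0 ∧ ∀ P, 0 ≤ D P + P.ord f) :
    HasEffectiveBound K F := by
  refine ⟨M, P₀, fun D hD => ?_⟩
  have hdM : Divisor.degree (D + Finsupp.single P₀ (M : ℤ)) = (M : ℤ) := by
    rw [map_add, Divisor.mem_degZero.mp hD, Divisor.degree_single, hdeg]
    simp
  obtain ⟨f, hf, hpos⟩ := hR _ hdM
  obtain ⟨G, hG, hG0⟩ := HasPrincipalDivisors.exists_divisor (K := K) f hf
  refine ⟨D + Finsupp.single P₀ (M : ℤ) + G, fun P => ?_, ?_, ?_⟩
  · rw [Finsupp.add_apply, hG]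
    exact hpos P
  · have h1 : ∀ E : Divisor K F, Divisor.degree E = E.sum fun _ n => n := by
      intro E
      induction E using Finsupp.induction with
      | zero => simp
      | single_add v n E _ _ ih =>
        rw [Finsupp.sum_add_index' (fun _ => rfl) (fun _ _ _ => rfl), map_add, ih,
          Divisor.degree_single, hdeg, Finsupp.sum_single_index rfl]
        simp
    rw [← h1, map_add, hdM, hG0, add_zero]
  · refine ⟨f⁻¹, inv_ne_zero hf, fun P => ?_⟩
    simp [Place.ord_inv, hG]

theorem abs_apply_le_of_effective {B : ℤ} (δ : Divisor K F →+ ℤ)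
    (hB : ∀ P, |δ (Finsupp.single P 1)| ≤ B) {E : Divisor K F} (hE : ∀ P, 0 ≤ E P) :
    |δ E| ≤ (E.sum fun _ n => n) * B := by
  conv_lhs => rw [← Finsupp.sum_single E, Finsupp.sum, map_sum]
  refine (Finset.abs_sum_le_sum_abs _ _).trans ?_
  rw [Finsupp.sum, Finset.sum_mul]
  refine Finset.sum_le_sum fun P _ => ?_
  have h : Finsupp.single P (E P) = E P • Finsupp.single P (1 : ℤ) := by
    rw [Finsupp.smul_single, smul_eq_mul, mul_one]
  rw [h, map_zsmul, smul_eq_mul, abs_mul, abs_of_nonneg (hE P)]
  exact mul_le_mul_of_nonneg_left (hB P) (hE P)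

/-- A map killing principal divisors and bounded on points is zero in degree zero. -/
theorem apply_eq_zero_of_bounded (hb : HasEffectiveBound K F) (δ : Divisor K F →+ ℤ)
    (hp : ∀ D ∈ Divisor.principal (K := K) (F := F), δ D = 0) {B : ℤ}
    (hB : ∀ P, |δ (Finsupp.single P 1)| ≤ B) {D : Divisor K F}
    (hD : D ∈ Divisor.degZero (K := K) (F := F)) : δ D = 0 := by
  obtain ⟨M, P₀, hM⟩ := hb
  have hbd : ∀ D' ∈ Divisor.degZero (K := K) (F := F), |δ D'| ≤ 2 * (M : ℤ) * B := by
    intro D' hD'
    obtain ⟨E, hE, hEM, hpr⟩ := hM D' hD'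
    have h0 := hp _ hpr
    rw [map_sub, map_add] at h0
    have h1 := abs_apply_le_of_effective δ hB hE
    rw [hEM] at h1
    have h2 : |δ (Finsupp.single P₀ (M : ℤ))| ≤ (M : ℤ) * B := by
      have h := abs_apply_le_of_effective δ hB (E := Finsupp.single P₀ (M : ℤ)) fun P => by
        classical
        rw [Finsupp.single_apply]
        split <;> positivity
      rwa [Finsupp.sum_single_index rfl] at h
    rw [abs_le] at h1 h2 ⊢
    constructor <;> linarith
  by_contra hne
  obtain ⟨n, hn⟩ := exists_nat_gt (2 * (M : ℤ) * B)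
  have h := hbd ((n : ℤ) • D) (zsmul_mem hD _)
  rw [map_zsmul, smul_eq_mul, abs_mul, Nat.abs_cast] at h
  have h1 : (1 : ℤ) ≤ |δ D| := Int.one_le_abs hne
  have h2 : (n : ℤ) ≤ (n : ℤ) * |δ D| := le_mul_of_one_le_right (Int.natCast_nonneg n) h1
  linarith

/-- Vector valued version of `apply_eq_zero_of_bounded`. -/
theorem apply_eq_zero_of_bounded' {ι : Type*} (hb : HasEffectiveBound K F)
    (δ : Divisor K F →+ (ι →₀ ℤ))
    (hp : ∀ D ∈ Divisor.principal (K := K) (F := F), δ D = 0) {B : ℤ}
    (hB : ∀ P i, |δ (Finsupp.single P 1) i| ≤ B) {D : Divisor K F}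
    (hD : D ∈ Divisor.degZero (K := K) (F := F)) : δ D = 0 := by
  ext i
  have h := apply_eq_zero_of_bounded hb ((Finsupp.applyAddHom i).comp δ)
    (fun D' hD' => by simp [hp D' hD']) (fun P => hB P i) hD
  simpa using h

end FermatAgent.ES
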