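import Fermat.Agent.ES.Bounded
import Fermat.Agent.Curve.RR.Defs

/-!
# `HasEffectiveBound` for curves in the Riemann–Roch setting
-/

set_option autoImplicit false

noncomputable section

open AlgebraicCurve FermatAgent.Curve.RR

namespace FermatAgent.ES

theorem hasEffectiveBound_of_rrSetting (K F : Type*) [Field K] [Field F] [Algebra K F]
    [hs : RRSetting K F] : HasEffectiveBound K F := by
  obtain ⟨γ, hγ⟩ := hs.riemann_bound
  obtain ⟨P₀⟩ := hs.nonempty_place
  refine hasEffectiveBound_of_riemann P₀ hs.deg_eq_one (γ.toNat + 1) fun D hD => ?_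
  have hpos : 0 < Module.finrank K (riemannRochSpace D) := by
    have h := hγ D
    rw [hD] at h
    simp only [ell] at h
    omega
  have : Nontrivial (riemannRochSpace D) := Module.nontrivial_of_finrank_pos hpos
  obtain ⟨⟨f, hf⟩, hne⟩ := exists_ne (0 : riemannRochSpace D)
  have hf0 : f ≠ 0 := fun h => hne (Subtype.ext h)
  refine ⟨f, hf0, fun P => ?_⟩
  have h := (mem_riemannRochSpace_iff.mp hf P).resolve_left hf0
  linarith

end FermatAgent.ES
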