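import Fermat.Agent.ES.FieldEmb
import Fermat.Agent.ES.Twist
import Fermat.Agent.ModCurve.Fun.Level
import Mathlib.Analysis.Complex.Polynomial.Basic
import Mathlib.RingTheory.RootsOfUnity.Complex
import Mathlib.RingTheory.RootsOfUnity.AlgebraicallyClosed

/-!
# The conjugates of `j (q ^ d)`

The conjugates of `j (q ^ d)`, `d ∣ N ℓ`, over level `N`: `d ↦ j (d γ_b (ℓ τ))`.
-/

set_option autoImplicit false
set_option linter.style.haveILetI false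

noncomputable section

open UpperHalfPlane hiding I
open ModularCurve
open scoped MatrixGroups

namespace FermatAgent.ES

local notation "Qb" => AlgebraicClosure ℚ

open FermatAgent.ModFun (cuspRing qLaurentHom qLaurent dil jFun jd twist expUnit)

/-- The image of `j (q ^ d)` under the conjugate with twist `ζ`. -/
def conjExp {R : Type*} [CommRing R] (N ℓ : ℕ) [NeZero N] [NeZero ℓ] (ζ : Rˣ)
    (d : {d : ℕ // d ∣ N * ℓ}) : LaurentSeries R :=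
  if h : d.1 ∣ N then
    haveI : NeZero d.1 := ⟨ne_zero_of_dvd_ne_zero (NeZero.ne N) h⟩
    qExpand R ℓ (qExpand R d.1 (jqModC R))
  else if h' : d.1 / ℓ ∣ N then qTwist ζ (jExp R N ⟨d.1 / ℓ, h'⟩) else 0

theorem dvd_or_eq_mul_of_prime {N ℓ d : ℕ} (hℓ : ℓ.Prime) (hd : d ∣ N * ℓ) :
    d ∣ N ∨ ∃ d', d' ∣ N ∧ d = d' * ℓ := by
  obtain ⟨a, b, ha, hb, rfl⟩ := (Nat.dvd_mul).mp hd
  rcases (Nat.dvd_prime hℓ).mp hb with rfl | rfl
  · exact Or.inl (by rwa [mul_one])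
  · exact Or.inr ⟨a, ha, rfl⟩

theorem coeffMap_conjExp {R S : Type*} [CommRing R] [CommRing S] (φ : R →+* S) (N ℓ : ℕ) [NeZero N]
    [NeZero ℓ] (ζ : Rˣ) (d : {d : ℕ // d ∣ N * ℓ}) :
    coeffMap φ (conjExp N ℓ ζ d) = conjExp N ℓ (Units.map φ.toMonoidHom ζ) d := by
  rw [conjExp, conjExp]
  split_ifs
  · rw [ModularCurve.coeffMap_qExpand, ModularCurve.coeffMap_qExpand, coeffMap_jqModC]
  · rw [coeffMap_qTwist, coeffMap_jExp]
  · rw [map_zero]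

/-- Precomposition of functions on `ℍ`. -/
def precomp (g : ℍ → ℍ) : (ℍ → ℂ) →ₐ[ℂ] (ℍ → ℂ) where
  toFun f := f ∘ g
  map_one' := rfl
  map_mul' _ _ := rfl
  map_zero' := rfl
  map_add' _ _ := rfl
  commutes' _ := rfl

/-- The matrix `(1, b + b'; N, N b + ℓ d')` in `Γ₀(N)`. -/
def conjMat {N ℓ : ℕ} {b' d' : ℤ} (h : (ℓ : ℤ) * d' - b' * N = 1) (b : ℕ) : SL(2, ℤ) :=
  ⟨!![1, (b : ℤ) + b'; (N : ℤ), (N : ℤ) * b + ℓ * d'],
    by rw [Matrix.det_fin_two_of]; linear_combination h⟩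

/-- The matrix `(ℓ, b'; N, d')` in `Γ₀(N)`. -/
def dilMat {N ℓ : ℕ} {b' d' : ℤ} (h : (ℓ : ℤ) * d' - b' * N = 1) : SL(2, ℤ) :=
  ⟨!![(ℓ : ℤ), b'; (N : ℤ), d'], by rw [Matrix.det_fin_two_of]; linear_combination h⟩

section Complex

variable {N ℓ : ℕ} [NeZero N] [NeZero ℓ] {b' d' : ℤ}

omit [NeZero N] in
theorem dil_conjMat (h : (ℓ : ℤ) * d' - b' * N = 1) (b : ℕ) (τ : ℍ) :
    dil ℓ (conjMat h b • dil ℓ τ) = dilMat h • (((b : ℝ) / ℓ) +ᵥ τ) := by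
  have hℓ : (ℓ : ℂ) ≠ 0 := Nat.cast_ne_zero.mpr (NeZero.ne ℓ)
  ext1
  rw [FermatAgent.ModFun.coe_dil, coe_specialLinearGroup_apply, coe_specialLinearGroup_apply,
    FermatAgent.ModFun.coe_dil, coe_vadd]
  simp only [conjMat, dilMat, Matrix.of_apply, Matrix.cons_val', Matrix.cons_val_zero,
    Matrix.cons_val_one, Matrix.empty_val', Matrix.cons_val_fin_one, algebraMap_int_eq, eq_intCast]
  push_cast
  field_simp
  ring_nf

omit [NeZero N] in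
theorem jd_conjMat_of_dvd (h : (ℓ : ℤ) * d' - b' * N = 1) (b : ℕ) {d : ℕ} [NeZero d]
    (hd : d ∣ N) (τ : ℍ) : jd d (conjMat h b • dil ℓ τ) = jd d (dil ℓ τ) :=
  FermatAgent.ModFun.jd_smul_of_mem (by
    simpa [conjMat] using Int.natCast_dvd_natCast.mpr hd) _

omit [NeZero N] in
theorem jd_mul_conjMat (h : (ℓ : ℤ) * d' - b' * N = 1) (b : ℕ) {d : ℕ} [NeZero d]
    [NeZero (d * ℓ)] (hd : d ∣ N) (τ : ℍ) :
    jd (d * ℓ) (conjMat h b • dil ℓ τ) = jd d (((b : ℝ) / ℓ) +ᵥ τ) := by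
  show jFun (dil (d * ℓ) _) = _
  rw [← FermatAgent.ModFun.dil_dil d ℓ, dil_conjMat]
  exact FermatAgent.ModFun.jd_smul_of_mem (γ := dilMat h)
    (by simpa [dilMat] using Int.natCast_dvd_natCast.mpr hd) _

/-- `j (d τ)` for `d ∣ M`. -/
def jdSub (M : ℕ) [NeZero M] (d : {d : ℕ // d ∣ M}) : ℍ → ℂ :=
  haveI : NeZero d.1 := ⟨ne_zero_of_dvd_ne_zero (NeZero.ne M) d.2⟩
  jd d.1

theorem jdSub_mem_cuspRing (M : ℕ) [NeZero M] (d : {d : ℕ // d ∣ M}) : jdSub M d ∈ cuspRing := by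
  haveI : NeZero d.1 := ⟨ne_zero_of_dvd_ne_zero (NeZero.ne M) d.2⟩
  exact FermatAgent.ModFun.mem_cuspRing_comp_dil FermatAgent.ModFun.jFun_mem_cuspRing d.1

theorem qLaurent_jdSub (M : ℕ) [NeZero M] (d : {d : ℕ // d ∣ M}) :
    qLaurent (jdSub M d) = jExp ℂ M d := by
  haveI : NeZero d.1 := ⟨ne_zero_of_dvd_ne_zero (NeZero.ne M) d.2⟩
  exact FermatAgent.ModFun.qLaurent_jd d.1

theorem qTwist_eq_twist {R : Type*} [CommRing R] (ζ : Rˣ) (x : LaurentSeries R) :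
    qTwist ζ x = twist ζ x := by
  ext n
  rfl

theorem jdSub_conjMat (hℓ : ℓ.Prime) (hℓN : ¬ ℓ ∣ N) (h : (ℓ : ℤ) * d' - b' * N = 1) (b : ℕ)
    (d : {d : ℕ // d ∣ N * ℓ}) :
    ∃ hmem : (jdSub (N * ℓ) d ∘ fun τ => conjMat h b • dil ℓ τ) ∈ cuspRing,
      qLaurentHom ⟨_, hmem⟩ = conjExp N ℓ (expUnit ((b : ℝ) / ℓ)) d := by
  obtain ⟨d, hd⟩ := d
  haveI hd0 : NeZero d := ⟨ne_zero_of_dvd_ne_zero (NeZero.ne (N * ℓ)) hd⟩
  rcases dvd_or_eq_mul_of_prime hℓ hd with hdN | ⟨e, he, rfl⟩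
  · have e1 : (jdSub (N * ℓ) ⟨d, hd⟩ ∘ fun τ => conjMat h b • dil ℓ τ) = jd d ∘ dil ℓ := by
      funext τ
      exact jd_conjMat_of_dvd h b hdN τ
    have hj : jd d ∈ cuspRing :=
      FermatAgent.ModFun.mem_cuspRing_comp_dil FermatAgent.ModFun.jFun_mem_cuspRing d
    refine ⟨by rw [e1]; exact FermatAgent.ModFun.mem_cuspRing_comp_dil hj ℓ, ?_⟩
    rw [FermatAgent.ModFun.qLaurentHom_apply, conjExp, dif_pos hdN]
    show qLaurent (jdSub (N * ℓ) ⟨d, hd⟩ ∘ fun τ => conjMat h b • dil ℓ τ) = _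
    rw [e1, FermatAgent.ModFun.qLaurent_comp_dil hj, FermatAgent.ModFun.qLaurent_jd]
  · haveI : NeZero e := ⟨ne_zero_of_dvd_ne_zero (NeZero.ne N) he⟩
    have hnd : ¬ e * ℓ ∣ N := fun hh => hℓN ((dvd_mul_left ℓ e).trans hh)
    have e1 : (jdSub (N * ℓ) ⟨e * ℓ, hd⟩ ∘ fun τ => conjMat h b • dil ℓ τ) =
        fun τ : ℍ => jd e (((b : ℝ) / ℓ) +ᵥ τ) := by
      funext τ
      exact jd_mul_conjMat h b he τ
    have hj : jd e ∈ cuspRing :=
      FermatAgent.ModFun.mem_cuspRing_comp_dil FermatAgent.ModFun.jFun_mem_cuspRing e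
    have he' : e * ℓ / ℓ = e := Nat.mul_div_cancel e hℓ.pos
    refine ⟨by rw [e1]; exact FermatAgent.ModFun.mem_cuspRing_comp_vadd hj _, ?_⟩
    rw [FermatAgent.ModFun.qLaurentHom_apply, conjExp, dif_neg hnd,
      dif_pos (show e * ℓ / ℓ ∣ N by rw [he']; exact he)]
    show qLaurent (jdSub (N * ℓ) ⟨e * ℓ, hd⟩ ∘ fun τ => conjMat h b • dil ℓ τ) = _
    rw [e1, FermatAgent.ModFun.qLaurent_comp_vadd hj, FermatAgent.ModFun.qLaurent_jd,
      qTwist_eq_twist]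
    congr 1
    haveI : NeZero (e * ℓ / ℓ) := ⟨by rw [he']; exact NeZero.ne e⟩
    simp only [jExp]
    exact qExpand_congr he'.symm _

omit [NeZero N] in
theorem surjective_conjFun (h : (ℓ : ℤ) * d' - b' * N = 1) (b : ℕ) :
    Function.Surjective fun τ => conjMat h b • dil ℓ τ := by
  intro z
  refine ⟨(⟨(ℓ : ℝ)⁻¹, inv_pos.mpr (Nat.cast_pos.mpr (NeZero.pos ℓ))⟩ : {x : ℝ // 0 < x}) •
    ((conjMat h b)⁻¹ • z), ?_⟩
  have hℓ : (ℓ : ℂ) ≠ 0 := Nat.cast_ne_zero.mpr (NeZero.ne ℓ)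
  have : ∀ w : ℍ, dil ℓ
      ((⟨(ℓ : ℝ)⁻¹, inv_pos.mpr (Nat.cast_pos.mpr (NeZero.pos ℓ))⟩ : {x : ℝ // 0 < x}) • w) = w :=
    fun w => by
      ext1
      simp [FermatAgent.ModFun.coe_dil, hℓ]
  simp [this]

/-- The conjugation preserves and reflects relations among the expansions, over `ℂ`. -/
theorem aeval_conjExp_eq_zero_iff_complex (hℓ : ℓ.Prime) (hℓN : ¬ ℓ ∣ N) (b : ℕ)
    (P : MvPolynomial {d : ℕ // d ∣ N * ℓ} ℂ) :
    MvPolynomial.aeval (jExp ℂ (N * ℓ)) P = 0 ↔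
      MvPolynomial.aeval (conjExp N ℓ (expUnit ((b : ℝ) / ℓ))) P = 0 := by
  obtain ⟨d', b', h⟩ : ∃ d' b' : ℤ, (ℓ : ℤ) * d' - b' * N = 1 := by
    obtain ⟨a, c, hac⟩ := Int.isCoprime_iff_gcd_eq_one.mpr
      (show Int.gcd (ℓ : ℤ) (N : ℤ) = 1 by
        rw [Int.gcd_natCast_natCast]; exact hℓ.coprime_iff_not_dvd.mpr hℓN)
    exact ⟨a, -c, by linear_combination hac⟩
  choose hmem hval using jdSub_conjMat hℓ hℓN h b
  let F : MvPolynomial {d : ℕ // d ∣ N * ℓ} ℂ →ₐ[ℂ] cuspRing :=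
    MvPolynomial.aeval fun d => (⟨jdSub (N * ℓ) d, jdSub_mem_cuspRing _ d⟩ : cuspRing)
  let G : MvPolynomial {d : ℕ // d ∣ N * ℓ} ℂ →ₐ[ℂ] cuspRing :=
    MvPolynomial.aeval fun d => (⟨_, hmem d⟩ : cuspRing)
  have hF : MvPolynomial.aeval (jExp ℂ (N * ℓ)) P = qLaurentHom (F P) := by
    rw [← AlgHom.comp_apply, MvPolynomial.comp_aeval]
    congr 1
    exact MvPolynomial.algHom_ext fun d => by simp [qLaurent_jdSub]
  have hG : MvPolynomial.aeval (conjExp N ℓ (expUnit ((b : ℝ) / ℓ))) P = qLaurentHom (G P) := by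
    rw [← AlgHom.comp_apply, MvPolynomial.comp_aeval]
    congr 1
    exact MvPolynomial.algHom_ext fun d => by simp only [MvPolynomial.aeval_X, hval]
  have hFG : ((G P : cuspRing) : ℍ → ℂ) =
      ((F P : cuspRing) : ℍ → ℂ) ∘ fun τ => conjMat h b • dil ℓ τ := by
    have e : cuspRing.val.comp G = (precomp fun τ => conjMat h b • dil ℓ τ).comp
        (cuspRing.val.comp F) := MvPolynomial.algHom_ext fun d => by simp [F, G, precomp]
    exact congrArg (fun φ : MvPolynomial {d : ℕ // d ∣ N * ℓ} ℂ →ₐ[ℂ] (ℍ → ℂ) => φ P) e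
  rw [hF, hG, map_eq_zero_iff _ FermatAgent.ModFun.qLaurentHom_injective,
    map_eq_zero_iff _ FermatAgent.ModFun.qLaurentHom_injective]
  constructor
  · intro h0
    exact Subtype.ext (by rw [hFG, h0]; rfl)
  · intro h0
    refine Subtype.ext (funext fun z => ?_)
    obtain ⟨τ, rfl⟩ := surjective_conjFun h b z
    have := congrFun hFG τ
    rw [h0] at this
    exact this.symm

end Complex

section Algebraic

/-- An embedding of `AlgebraicClosure ℚ` in `ℂ`. -/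
def qbarEmb : Qb →+* ℂ :=
  haveI : Algebra.IsAlgebraic ℚ Qb := AlgebraicClosure.isAlgebraic ℚ
  (IsAlgClosed.lift : Qb →ₐ[ℚ] ℂ).toRingHom

/-- An `ℓ`-th root of unity going to `exp (2 π i / ℓ)`. -/
theorem exists_root_qbarEmb (ℓ : ℕ) [NeZero ℓ] :
    ∃ ζ : Qbˣ, ζ ^ ℓ = 1 ∧ ∀ b : ℕ,
      Units.map qbarEmb.toMonoidHom (ζ ^ b) = expUnit ((b : ℝ) / ℓ) := by
  obtain ⟨μ, hμ⟩ := HasEnoughRootsOfUnity.exists_primitiveRoot Qb ℓ
  have h1 : IsPrimitiveRoot (qbarEmb μ) ℓ := hμ.map_of_injective qbarEmb.injective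
  have h2 : (expUnit ((1 : ℝ) / ℓ) : ℂ) ^ ℓ = 1 := by
    simp only [expUnit, Units.val_mk0, ← Complex.exp_nat_mul]
    have hℓ : (ℓ : ℂ) ≠ 0 := Nat.cast_ne_zero.mpr (NeZero.ne ℓ)
    rw [Complex.exp_eq_one_iff]
    exact ⟨1, by push_cast; field_simp⟩
  obtain ⟨i, -, hi⟩ := h1.eq_pow_of_pow_eq_one h2
  have hμu : IsUnit μ := hμ.isUnit (NeZero.ne ℓ)
  refine ⟨hμu.unit ^ i, ?_, fun b => Units.ext ?_⟩
  · refine Units.ext ?_
    rw [← pow_mul, mul_comm, pow_mul]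
    simp [hμ.pow_eq_one]
  · simp only [Units.coe_map, Units.val_pow_eq_pow_val, IsUnit.unit_spec, RingHom.toMonoidHom_eq_coe,
      MonoidHom.coe_coe, map_pow, hi]
    simp only [expUnit, Units.val_mk0, ← Complex.exp_nat_mul]
    congr 1
    push_cast
    ring

theorem coeffMap_qbarEmb_injective : Function.Injective (coeffMap qbarEmb) := fun x y h => by
  ext n
  exact qbarEmb.injective (congrArg (fun z : LaurentSeries ℂ => z.coeff n) h)

theorem coeffMap_aeval_qbar {ι : Type*} (v : ι → LaurentSeries Qb) (P : MvPolynomial ι Qb) :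
    coeffMap qbarEmb (MvPolynomial.aeval v P) =
      MvPolynomial.aeval (fun i => coeffMap qbarEmb (v i)) (MvPolynomial.map qbarEmb P) := by
  induction P using MvPolynomial.induction_on with
  | C a =>
    rw [MvPolynomial.map_C, MvPolynomial.aeval_C, MvPolynomial.aeval_C,
      algebraMap_laurentSeries_eq_single, algebraMap_laurentSeries_eq_single, coeffMap_single]
  | add p q hp hq => simp [hp, hq]
  | mul_X p i hp => simp [hp]

theorem aeval_conjExp_eq_zero_iff {N ℓ : ℕ} [NeZero N] [NeZero ℓ] (hℓ : ℓ.Prime) (hℓN : ¬ ℓ ∣ N)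
    {ζ : Qbˣ} {b : ℕ} (hζ : Units.map qbarEmb.toMonoidHom (ζ ^ b) = expUnit ((b : ℝ) / ℓ))
    (P : MvPolynomial {d : ℕ // d ∣ N * ℓ} Qb) :
    MvPolynomial.aeval (jExp Qb (N * ℓ)) P = 0 ↔
      MvPolynomial.aeval (conjExp N ℓ (ζ ^ b)) P = 0 := by
  rw [← map_eq_zero_iff _ coeffMap_qbarEmb_injective, coeffMap_aeval_qbar,
    ← map_eq_zero_iff _ coeffMap_qbarEmb_injective (x := MvPolynomial.aeval (conjExp N ℓ (ζ ^ b)) P),
    coeffMap_aeval_qbar]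
  simp only [coeffMap_jExp, coeffMap_conjExp, hζ]
  exact aeval_conjExp_eq_zero_iff_complex hℓ hℓN b _

end Algebraic

end FermatAgent.ES
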