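import Fermat.Agent.ES.Assembly
import Fermat.Agent.GalRep.Construct.Interface

/-!
# Torsion of `JZero N` in the form used by `GalRep`

Unramifiedness and the Frobenius quadratic relation on torsion, in the form used by `GalRep`.
-/

set_option autoImplicit false
set_option linter.style.haveILetI false

noncomputable section

open AlgebraicCurve ModularCurve

namespace FermatAgent.ES

variable {N : ℕ} [NeZero N]

theorem torsionUnramified_of_goodInputs (hin : GoodInputs N) (p : ℕ) :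
    FermatAgent.GalRep.TorsionUnramified N p := by
  intro ℓ hℓ hℓNp A hA σ hσ n x hx
  haveI : NeZero ℓ := ⟨hℓ.ne_zero⟩
  obtain ⟨hℓN, hℓpn⟩ := not_dvd_pow_of_not_dvd_mul hℓ hℓNp n
  exact smul_eq_self_of_mem_inertia (hin ℓ hℓ hℓN A hA) hσ hℓpn hx

theorem torsionFrobQuadratic_of_goodInputs (hin : GoodInputs N) (p : ℕ) :
    FermatAgent.GalRep.TorsionFrobQuadratic N p := by
  intro ℓ hℓ hℓNp A hA τ hτ n x hx
  haveI : NeZero ℓ := ⟨hℓ.ne_zero⟩
  obtain ⟨hℓN, hℓpn⟩ := not_dvd_pow_of_not_dvd_mul hℓ hℓNp n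
  exact frobenius_quadratic (hin ℓ hℓ hℓN A hA) hℓ hA hτ hℓpn hx

end FermatAgent.ES
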