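import Fermat.Agent.ES.Hecke
import Fermat.Agent.RT.Frobenius
import Fermat.Prelude.Def_ModularCurve_HeckeModule

/-!
# Specialisation at a good prime

The specialisation of `JZero N` at a good prime, given the inputs at that prime.
-/

set_option autoImplicit false
set_option linter.style.haveILetI false

noncomputable section

open AlgebraicCurve ModularCurve

namespace FermatAgent.ES

local notation "Qb" => AlgebraicClosure ℚ

/-- What is used about level `N` at a place `A` over a prime `ℓ`. -/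
structure GoodPlaceInputs (N ℓ : ℕ) [NeZero N] [NeZero ℓ] (A : ValuationSubring Qb) : Prop where
  reductionInputs : ReductionInputsModL A N
  injective : ∀ (m : ℕ), ¬ ℓ ∣ m → ∀ z : JZero N, m • z = 0 → reductionModL A N z = 0 → z = 0
  effectiveBound : HasEffectiveBound Qb (modularFunctionFieldBar N)
  deg_eq_one : ∀ P : Place Qb (modularFunctionFieldBar N), P.deg = 1
  norm : HeckeNormFormula N ℓ
  heckeInputs : HeckeInputsAlong Qb N ℓ

variable {A : ValuationSubring Qb} {N : ℕ} [NeZero N] {ℓ : ℕ} [NeZero ℓ]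

omit [NeZero ℓ] in
theorem charP_residueField (hℓ : ℓ.Prime) (hA : A.LiesOverPrime ℓ) :
    CharP (IsLocalRing.ResidueField A) ℓ := by
  refine (CharP.charP_iff_prime_eq_zero hℓ).mpr ?_
  rw [← map_natCast (IsLocalRing.residue A), IsLocalRing.residue_eq_zero_iff,
    ← ValuationSubring.coe_mem_nonunits_iff]
  simpa [ValuationSubring.LiesOverPrime] using hA

theorem map_quadratic_eq_zero {J J' : Type*} [AddCommGroup J] [AddCommGroup J'] (f : J →+ J')
    (a b d : J) (n : ℕ) (u v : J') (hb : f b = u + n • v) (ha : f a = u) (hd : f d = v) :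
    f (a - b + n • d) = 0 := by
  rw [map_add, map_sub, map_nsmul, ha, hb, hd]
  abel

variable (hi : GoodPlaceInputs N ℓ A)
include hi

theorem reductionModL_smul (g : A.decompositionSubgroup ℚ) (x : JZero N) :
    reductionModL A N ((g : Qb ≃ₐ[ℚ] Qb) • x) =
      coeffSemilinear N (residueAut g) • reductionModL A N x :=
  reductionAlong_smul hi.reductionInputs hi.effectiveBound g (residueAut g)
    (residueAut_residue g) x

theorem reductionModL_inertia {σ : Qb ≃ₐ[ℚ] Qb} (hσ : σ ∈ A.inertiaSubgroupIn ℚ) (x : JZero N) :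
    reductionModL A N (σ • x) = reductionModL A N x := by
  obtain ⟨hD, hres⟩ := residueAut_of_mem_inertia hσ
  have h := reductionModL_smul hi ⟨σ, hD⟩ x
  rw [hres, coeffSemilinear_refl, one_smul] at h
  exact h

theorem reductionModL_frobenius_eq {σ τ : Qb ≃ₐ[ℚ] Qb} (hσ : A.IsFrobeniusAt σ ℓ)
    (hτ : A.IsFrobeniusAt τ ℓ) (x : JZero N) :
    reductionModL A N (σ • x) = reductionModL A N (τ • x) := by
  have h1 := reductionModL_smul hi ⟨σ, hσ.mem_decompositionSubgroup⟩ x
  have h2 := reductionModL_smul hi ⟨τ, hτ.mem_decompositionSubgroup⟩ x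
  have e : residueAut ⟨σ, hσ.mem_decompositionSubgroup⟩ =
      residueAut ⟨τ, hτ.mem_decompositionSubgroup⟩ :=
    RingEquiv.ext fun a => by rw [residueAut_of_isFrobeniusAt hσ, residueAut_of_isFrobeniusAt hτ]
  rw [e] at h1
  exact h1.trans h2.symm

theorem reductionModL_quadratic (hℓ : ℓ.Prime) (hA : A.LiesOverPrime ℓ) {σ : Qb ≃ₐ[ℚ] Qb}
    (hσ : A.IsFrobeniusAt σ ℓ) (x : JZero N) :
    reductionModL A N
      (σ • σ • x - heckeOperatorAlong Qb N ℓ (σ • x) + ℓ • x) = 0 := by
  haveI := Fact.mk hℓ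
  haveI := charP_residueField hℓ hA
  obtain ⟨u, hu⟩ : ∃ u, u = reductionModL A N x := ⟨_, rfl⟩
  have hs : ∀ y : JZero N, reductionModL A N (σ • y) =
      coeffSemilinear N (residueAut ⟨σ, hσ.mem_decompositionSubgroup⟩) • reductionModL A N y :=
    fun y => reductionModL_smul hi ⟨σ, hσ.mem_decompositionSubgroup⟩ y
  have hT := reductionAlong_heckeOperatorAlong hi.reductionInputs hi.effectiveBound hi.deg_eq_one
    hi.norm hi.heckeInputs (residueAut ⟨σ, hσ.mem_decompositionSubgroup⟩)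
    (residueAut_of_isFrobeniusAt hσ) (σ • x)
  refine map_quadratic_eq_zero (reductionModL A N) _ _ _ ℓ _ _ hT (hs (σ • x)) ?_
  have h := hs x
  rw [h, ← coeffSemilinear_inv, inv_smul_smul]

/-- Inertia fixes the prime-to-`ℓ` torsion. -/
theorem smul_eq_self_of_mem_inertia {σ : Qb ≃ₐ[ℚ] Qb} (hσ : σ ∈ A.inertiaSubgroupIn ℚ) {m : ℕ}
    (hm : ¬ ℓ ∣ m) {x : JZero N} (hx : m • x = 0) : σ • x = x := by
  have h0 : m • (σ • x) = 0 := by
    rw [← smul_zero (A := JZero N) σ, ← hx]
    exact (map_nsmul (DistribSMul.toAddMonoidHom (JZero N) σ) m x).symm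
  refine sub_eq_zero.mp (hi.injective m hm _ ?_ ?_)
  · rw [nsmul_sub, h0, hx, sub_zero]
  · rw [map_sub, reductionModL_inertia hi hσ, sub_self]

/-- The Frobenius quadratic relation on prime-to-`ℓ` torsion. -/
theorem frobenius_quadratic (hℓ : ℓ.Prime) (hA : A.LiesOverPrime ℓ) {σ : Qb ≃ₐ[ℚ] Qb}
    (hσ : A.IsFrobeniusAt σ ℓ) {m : ℕ} (hm : ¬ ℓ ∣ m) {x : JZero N} (hx : m • x = 0) :
    σ • σ • x - heckeOperatorAlong Qb N ℓ (σ • x) + ℓ • x = 0 := by
  refine hi.injective m hm _ ?_ (reductionModL_quadratic hi hℓ hA hσ x)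
  have hs : ∀ y : JZero N, m • y = 0 → m • (σ • y) = 0 := fun y hy => by
    rw [← smul_zero (A := JZero N) σ, ← hy]
    exact (map_nsmul (DistribSMul.toAddMonoidHom (JZero N) σ) m y).symm
  rw [nsmul_add, nsmul_sub, hs _ (hs x hx), ← map_nsmul, hs x hx, map_zero, sub_zero, zero_add,
    smul_comm, hx, smul_zero]

end FermatAgent.ES
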